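import Fermat.Agent.LT.Geom.Classes
import Mathlib.GroupTheory.GroupAction.Defs
import Mathlib.Algebra.Algebra.Equiv
import Mathlib.Tactic.Group

/-!
`σ`-twisted classes of `PGL₂(K')` for a cyclic cubic `K'/K`: the norm `δ σδ σ²δ` has invariant in
`K`; over an elliptic invariant there is at most one twisted class (a Hilbert 90 argument on the
torus), and its twisted centraliser is the torus over `K`.
-/

set_option autoImplicit false

noncomputable section

open Matrix
open scoped MatrixGroups

namespace Fermat.Agent.LT.Geom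

section GroupNorm

variable {G : Type*} [Group G] (σ : G ≃* G)

/-- The norm `δ σδ σ²δ`. -/
def twNorm (δ : G) : G := δ * σ δ * σ (σ δ)

/-- Twisted conjugation. -/
def twConj (g δ : G) : G := g * δ * (σ g)⁻¹

theorem twConj_one (δ : G) : twConj σ 1 δ = δ := by simp [twConj]

theorem twConj_mul (g h δ : G) : twConj σ (g * h) δ = twConj σ g (twConj σ h δ) := by
  simp [twConj, mul_assoc]

variable (hσ : ∀ x, σ (σ (σ x)) = x)
include hσ

theorem twNorm_twConj (g δ : G) : twNorm σ (twConj σ g δ) = g * twNorm σ δ * g⁻¹ := by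
  simp [twNorm, twConj, hσ, mul_assoc]

theorem apply_twNorm (δ : G) : σ (twNorm σ δ) = δ⁻¹ * twNorm σ δ * δ := by
  simp [twNorm, hσ, mul_assoc]

/-- If the norm is fixed by `σ` then `δ` commutes with it. -/
theorem commute_of_apply_twNorm {δ : G} (h : σ (twNorm σ δ) = twNorm σ δ) :
    δ * twNorm σ δ = twNorm σ δ * δ := by
  conv_lhs => rw [← h, apply_twNorm σ hσ]
  group

end GroupNorm

section PGLMap

variable {R S : Type*} [CommRing R] [CommRing S]

/-- Functoriality of `PGL₂`. -/
def pglMap (f : R →+* S) : PGL(2, R) →* PGL(2, S) :=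
  ProjGenLinGroup.lift (ProjGenLinGroup.mk.comp (GeneralLinearGroup.map f)) (by
    ext u
    simp only [MonoidHom.comp_apply, MonoidHom.one_apply]
    rw [show GeneralLinearGroup.map f (GeneralLinearGroup.scalar (Fin 2) u)
      = GeneralLinearGroup.scalar (Fin 2) (Units.map f.toMonoidHom u) from ?_,
      ProjGenLinGroup.mk_scalar]
    ext i j
    fin_cases i <;> fin_cases j <;> simp)

@[simp]
theorem pglMap_mk (f : R →+* S) (g : GL (Fin 2) R) :
    pglMap f (ProjGenLinGroup.mk g) = ProjGenLinGroup.mk (GeneralLinearGroup.map f g) := rfl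

theorem pglMap_pglMap {T : Type*} [CommRing T] (g : S →+* T) (f : R →+* S) (x : PGL(2, R)) :
    pglMap g (pglMap f x) = pglMap (g.comp f) x := by
  induction x using ProjGenLinGroup.induction_on with | mk a =>
  simp only [pglMap_mk]
  congr 1

theorem pglMap_id (x : PGL(2, R)) : pglMap (RingHom.id R) x = x := by
  induction x using ProjGenLinGroup.induction_on with | mk a =>
  simp only [pglMap_mk]
  congr 1

/-- The automorphism of `PGL₂` induced by a ring automorphism. -/
def pglEquiv (e : R ≃+* R) : PGL(2, R) ≃* PGL(2, R) where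
  toFun := pglMap e.toRingHom
  invFun := pglMap e.symm.toRingHom
  left_inv x := by simp [pglMap_pglMap, pglMap_id]
  right_inv x := by simp [pglMap_pglMap, pglMap_id]
  map_mul' := map_mul _

theorem pglEquiv_apply (e : R ≃+* R) (x : PGL(2, R)) : pglEquiv e x = pglMap e.toRingHom x := rfl

end PGLMap

section Fields

variable {K K' : Type*} [Field K] [Field K']

theorem classInv_pglMap (f : K →+* K') (γ : PGL(2, K)) :
    classInv (pglMap f γ) = f (classInv γ) := by
  induction γ using ProjGenLinGroup.induction_on with | mk g =>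
  rw [pglMap_mk, classInv_mk, classInv_mk, matInv, matInv, map_div₀, map_pow]
  congr 1
  · congr 1
    simp [Matrix.trace_fin_two]
  · simp [Matrix.det_fin_two]

theorem pglMap_classRep (f : K →+* K') (c : K) (hc : c ≠ 0) :
    pglMap f (classRep c hc) = classRep (f c) ((map_ne_zero f).mpr hc) := by
  rw [classRep, classRep, pglMap_mk]
  congr 1
  ext i j
  fin_cases i <;> fin_cases j <;> simp [classMat]

theorem pglMap_injective (f : K →+* K') : Function.Injective (pglMap f) := by
  intro x y h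
  induction x using ProjGenLinGroup.induction_on with | mk g =>
  induction y using ProjGenLinGroup.induction_on with | mk g' =>
  rw [pglMap_mk, pglMap_mk, ProjGenLinGroup.mk_eq_mk_iff] at h
  obtain ⟨u, hu⟩ := h
  rw [ProjGenLinGroup.mk_eq_mk_iff]
  have hent : ∀ i j, f ((g : Matrix (Fin 2) (Fin 2) K) i j) * u
      = f ((g' : Matrix (Fin 2) (Fin 2) K) i j) := by
    intro i j
    have := congrArg (fun y : GL (Fin 2) K' => (y : Matrix (Fin 2) (Fin 2) K') i j) hu
    fin_cases i <;> fin_cases j <;> simpa [Matrix.mul_apply] using this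
  obtain ⟨i, j, hij⟩ : ∃ i j, (g : Matrix (Fin 2) (Fin 2) K) i j ≠ 0 := by
    by_contra hcon
    simp only [not_exists, not_not] at hcon
    have h0 : (g : Matrix (Fin 2) (Fin 2) K) = 0 := by ext i j; exact hcon i j
    exact g.isUnit.ne_zero h0
  set v := (g' : Matrix (Fin 2) (Fin 2) K) i j / (g : Matrix (Fin 2) (Fin 2) K) i j
  have hfv : f v = (u : K') := by
    rw [map_div₀, ← hent i j, mul_div_cancel_left₀ _ ((map_ne_zero f).mpr hij)]
  have hv : v ≠ 0 := fun h0 => u.ne_zero (by rw [← hfv, h0, map_zero])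
  refine ⟨Units.mk0 v hv, ?_⟩
  ext k l
  have hkl : (g : Matrix (Fin 2) (Fin 2) K) k l * v = (g' : Matrix (Fin 2) (Fin 2) K) k l :=
    f.injective (by rw [map_mul, hfv, hent])
  fin_cases k <;> fin_cases l <;> simpa [Matrix.mul_apply] using hkl

variable [Algebra K K'] (σ : K' ≃ₐ[K] K')
  (hfix : ∀ x : K', σ x = x → x ∈ Set.range (algebraMap K K'))

/-- `σ` on `PGL₂(K')`. -/
abbrev pglSigma : PGL(2, K') ≃* PGL(2, K') := pglEquiv σ.toRingEquiv

theorem pglSigma_pglMap (γ : PGL(2, K)) :
    pglSigma σ (pglMap (algebraMap K K') γ) = pglMap (algebraMap K K') γ := by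
  rw [pglSigma, pglEquiv_apply, pglMap_pglMap]
  congr 1
  congr 1
  ext a
  exact σ.commutes a

include hfix in
/-- Fixed points of `σ` on `PGL₂(K')` come from `PGL₂(K)`: no cocycle can appear. -/
theorem exists_pglMap_eq_of_fixed {x : PGL(2, K')} (h : pglSigma σ x = x) :
    ∃ γ : PGL(2, K), pglMap (algebraMap K K') γ = x := by
  induction x using ProjGenLinGroup.induction_on with | mk g =>
  obtain ⟨i₀, j₀, hne⟩ : ∃ i j, (g : Matrix (Fin 2) (Fin 2) K') i j ≠ 0 := by
    by_contra hcon
    simp only [not_exists, not_not] at hcon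
    have h0 : (g : Matrix (Fin 2) (Fin 2) K') = 0 := by ext i j; exact hcon i j
    exact g.isUnit.ne_zero h0
  set m := (g : Matrix (Fin 2) (Fin 2) K') i₀ j₀
  rw [pglSigma, pglEquiv_apply, pglMap_mk, ProjGenLinGroup.mk_eq_mk_iff] at h
  obtain ⟨u, hu⟩ := h
  have hent : ∀ i j, σ ((g : Matrix (Fin 2) (Fin 2) K') i j) * u
      = (g : Matrix (Fin 2) (Fin 2) K') i j := by
    intro i j
    have := congrArg (fun y : GL (Fin 2) K' => (y : Matrix (Fin 2) (Fin 2) K') i j) hu
    fin_cases i <;> fin_cases j <;> simpa [Matrix.mul_apply] using this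
  have hfixed : ∀ i j, σ ((g : Matrix (Fin 2) (Fin 2) K') i j / m)
      = (g : Matrix (Fin 2) (Fin 2) K') i j / m := by
    intro i j
    rw [map_div₀, ← mul_div_mul_right (σ _) (σ m) u.ne_zero, hent, hent]
  choose A hA using fun i j => hfix _ (hfixed i j)
  let M : Matrix (Fin 2) (Fin 2) K := Matrix.of A
  have hM : ∀ i j, algebraMap K K' (M i j) = (g : Matrix (Fin 2) (Fin 2) K') i j / m := hA
  have hdet : M.det ≠ 0 := by
    intro h0
    have h1 := congrArg (algebraMap K K') h0
    rw [Matrix.det_fin_two, map_sub, map_mul, map_mul, hM, hM, hM, hM, map_zero] at h1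
    apply (Matrix.isUnit_iff_isUnit_det (g : Matrix (Fin 2) (Fin 2) K')).mp g.isUnit |>.ne_zero
    rw [Matrix.det_fin_two]
    field_simp at h1
    linear_combination h1
  refine ⟨ProjGenLinGroup.mk (GeneralLinearGroup.mkOfDetNeZero M hdet), ?_⟩
  rw [pglMap_mk, ProjGenLinGroup.mk_eq_mk_iff]
  refine ⟨Units.mk0 m hne, ?_⟩
  ext i j
  fin_cases i <;> fin_cases j <;> simp [Matrix.mul_apply, hM, div_mul_cancel₀ _ hne]

variable (hσ : ∀ x : K', σ (σ (σ x)) = x)
include hσ

theorem pglSigma_cube (x : PGL(2, K')) : pglSigma σ (pglSigma σ (pglSigma σ x)) = x := by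
  simp only [pglSigma, pglEquiv_apply, pglMap_pglMap]
  conv_rhs => rw [← pglMap_id x]
  congr 1
  congr 1
  ext a
  exact hσ a

theorem classInv_twNorm_fixed (δ : PGL(2, K')) :
    σ (classInv (twNorm (pglSigma σ) δ)) = classInv (twNorm (pglSigma σ) δ) := by
  have h := congrArg classInv (apply_twNorm (pglSigma σ) (pglSigma_cube σ hσ) δ)
  rw [pglSigma, pglEquiv_apply, classInv_pglMap] at h
  refine h.trans ?_
  conv_rhs => rw [← classInv_conj δ⁻¹ (twNorm (pglSigma σ) δ), inv_inv]

include hfix in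
/-- The invariant of a norm lies in `K`. -/
theorem exists_classInv_twNorm (δ : PGL(2, K')) :
    ∃ c : K, algebraMap K K' c = classInv (twNorm (pglSigma σ) δ) :=
  hfix _ (classInv_twNorm_fixed σ hσ δ)

include hfix in
/-- Being a square in `K'` is being a square in `K` (odd degree). -/
theorem not_isSquare_algebraMap {a : K} (h : ¬ IsSquare a) :
    ¬ IsSquare (algebraMap K K' a) := by
  rintro ⟨r, hr⟩
  have hr' : σ r * σ r = r * r := by rw [← map_mul, ← hr, σ.commutes]
  have hσr : σ r = r := by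
    rcases mul_self_eq_mul_self_iff.mp hr' with e | e
    · exact e
    · have h3 := hσ r
      rw [e, map_neg, e, neg_neg, e] at h3
      rw [e, h3]
  obtain ⟨b, rfl⟩ := hfix r hσr
  exact h ⟨b, (algebraMap K K').injective (by rw [map_mul]; exact hr)⟩

/-- A twisted class over `c` has a representative whose norm is the normal form. -/
theorem exists_twConj_norm_eq {c : K} (hc : c ≠ 0) (hc4 : c ≠ 4) {δ : PGL(2, K')}
    (h : classInv (twNorm (pglSigma σ) δ) = algebraMap K K' c) :
    ∃ g, twNorm (pglSigma σ) (twConj (pglSigma σ) g δ)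
      = pglMap (algebraMap K K') (classRep c hc) := by
  have hc' : algebraMap K K' c ≠ 0 := (map_ne_zero _).mpr hc
  have hc4' : algebraMap K K' c ≠ 4 := fun e => hc4 ((algebraMap K K').injective
    (e.trans (map_ofNat (algebraMap K K') 4).symm))
  obtain ⟨g, hg⟩ := isConj_iff.mp (isConj_classRep hc' hc4' h)
  exact ⟨g, by rw [twNorm_twConj _ (pglSigma_cube σ hσ), pglMap_classRep]; exact hg⟩

theorem mem_torus_of_norm_eq {c : K} (hc : c ≠ 0) {δ : PGL(2, K')}
    (h : twNorm (pglSigma σ) δ = pglMap (algebraMap K K') (classRep c hc)) :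
    δ ∈ torus (algebraMap K K' c) := by
  have h1 := commute_of_apply_twNorm (pglSigma σ) (pglSigma_cube σ hσ) (δ := δ)
    (by rw [h, pglSigma_pglMap])
  rw [h, pglMap_classRep] at h1
  exact (mem_centralizer_classRep_iff _ δ).mp h1

end Fields

section Hilbert90

variable {K K' : Type*} [Field K] [Field K'] [Algebra K K'] (σ : K' ≃ₐ[K] K')

/-- `1, σ, σ²` are independent. -/
theorem exists_eval_ne_zero (hne : σ ≠ 1) (hσ : ∀ x, σ (σ (σ x)) = x) (a b : K') :
    ∃ y : K', y + a * σ y + b * σ (σ y) ≠ 0 := by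
  by_contra hcon
  simp only [not_exists, not_not] at hcon
  obtain ⟨z, hz⟩ : ∃ z, σ z ≠ z := by
    by_contra h
    simp only [not_exists, not_not] at h
    exact hne (AlgEquiv.ext h)
  have hz2 : σ (σ z) ≠ z := fun e => hz (by rw [← e]; exact (hσ z).trans e.symm)
  have hz12 : σ (σ z) ≠ σ z := fun e => hz (σ.injective e)
  -- eliminate with the relation applied to `z * y`
  have key : ∀ y, a * (σ z - z) * σ y + b * (σ (σ z) - z) * σ (σ y) = 0 := fun y => by
    have h1 := hcon (z * y)
    rw [map_mul, map_mul] at h1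
    linear_combination h1 - z * hcon y
  have hb : b = 0 := by
    have h1 := key 1
    have h2 := key z
    simp only [map_one, mul_one] at h1
    have h3 : b * (σ (σ z) - z) * (σ (σ z) - σ z) = 0 := by linear_combination h2 - σ z * h1
    simpa [sub_eq_zero, hz2, hz12] using h3
  have ha : a = 0 := by
    have h1 := key 1
    simp [hb] at h1
    exact h1.resolve_right (sub_ne_zero.mpr hz)
  have := hcon 1
  simp [ha, hb] at this

variable (c : K)

/-- `σ` applied to a torus element is the torus element of the conjugated coordinates. -/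
theorem map_torusMat (a b : K') :
    (torusMat (algebraMap K K' c) a b).map σ = torusMat (algebraMap K K' c) (σ a) (σ b) := by
  ext i j
  fin_cases i <;> fin_cases j <;> simp [torusMat]

theorem torusMat_injective {R : Type*} [CommRing R] {c a b a' b' : R}
    (h : torusMat c a b = torusMat c a' b') : a = a' ∧ b = b' := by
  refine ⟨?_, ?_⟩
  · simpa [torusMat] using congrFun (congrFun h 0) 0
  · simpa [torusMat] using congrFun (congrFun h 1) 0

variable (hne : σ ≠ 1) (hσ : ∀ x, σ (σ (σ x)) = x)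
include hne hσ

/-- Hilbert 90 on the elliptic torus, modulo scalars: norm one implies coboundary. -/
theorem exists_torus_coboundary (hns : ¬ IsSquare ((algebraMap K K' c) ^ 2 - 4 * algebraMap K K' c))
    {a b : K'} (hab : a ≠ 0 ∨ b ≠ 0) {lam : K'}
    (hN : torusMat (algebraMap K K' c) a b *
      (torusMat (algebraMap K K' c) (σ a) (σ b) *
        torusMat (algebraMap K K' c) (σ (σ a)) (σ (σ b))) = lam • 1) :
    ∃ p q u : K', u ≠ 0 ∧ (p ≠ 0 ∨ q ≠ 0) ∧
      torusMat (algebraMap K K' c) a b * torusMat (algebraMap K K' c) (σ p) (σ q)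
        = u • torusMat (algebraMap K K' c) p q := by
  set c' := algebraMap K K' c with hc'
  have hd : ∀ {x y : K'}, (x ≠ 0 ∨ y ≠ 0) → (torusMat c' x y).det ≠ 0 :=
    fun h => det_torusMat_ne_zero hns h
  have h00 : a * (σ a * σ (σ a) - c' * (σ b * σ (σ b))) -
      c' * (b * (σ a * σ (σ b) + σ b * σ (σ a) + c' * (σ b * σ (σ b)))) = lam := by
    have h := hN
    rw [torusMat_mul, torusMat_mul] at h
    simpa [torusMat] using congrFun (congrFun h 0) 0
  have h10 : a * (σ a * σ (σ b) + σ b * σ (σ a) + c' * (σ b * σ (σ b))) +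
      b * (σ a * σ (σ a) - c' * (σ b * σ (σ b))) +
        c' * (b * (σ a * σ (σ b) + σ b * σ (σ a) + c' * (σ b * σ (σ b)))) = 0 := by
    have h := hN
    rw [torusMat_mul, torusMat_mul] at h
    simpa [torusMat] using congrFun (congrFun h 1) 0
  -- `lam` is fixed, and it is a norm from `K'`
  have hlam : σ lam = lam := by
    have h := congrArg σ h00
    simp only [map_add, map_mul, map_sub, hσ, hc', AlgEquiv.commutes] at h
    rw [← hc'] at h
    linear_combination h00 - h
  set d := (torusMat c' a b).det with hd'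
  have hd0 : d ≠ 0 := hd hab
  have hNd : d * (σ d * σ (σ d)) = lam ^ 2 := by
    have h1 := congrArg Matrix.det hN
    rw [Matrix.det_mul, Matrix.det_mul, Matrix.det_smul, Matrix.det_one, Fintype.card_fin,
      mul_one] at h1
    rw [← h1, hd']
    simp only [det_torusMat, hc', map_add, map_mul, map_pow, AlgEquiv.commutes]
  have hlam0 : lam ≠ 0 := by
    rintro rfl
    rw [zero_pow (two_ne_zero (α := ℕ)), mul_eq_zero, mul_eq_zero] at hNd
    simp [hd0] at hNd
  set t := d / lam with ht
  -- `t • (a + b γ)` has norm one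
  have hNt : t * (σ t * σ (σ t)) * lam = 1 := by
    simp only [ht, map_div₀, hlam]
    field_simp
    linear_combination hNd
  obtain ⟨y, hy⟩ := exists_eval_ne_zero σ hne hσ (t * a)
    (t * a * (σ t * σ a) - c' * (t * b * (σ t * σ b)))
  let p : K' := y + t * a * σ y + (t * a * (σ t * σ a) - c' * (t * b * (σ t * σ b))) * σ (σ y)
  let q : K' := t * b * σ y +
    (t * a * (σ t * σ b) + t * b * (σ t * σ a) + c' * (t * b * (σ t * σ b))) * σ (σ y)
  refine ⟨p, q, t⁻¹, inv_ne_zero (div_ne_zero hd0 hlam0), Or.inl hy, ?_⟩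
  have ht0 : t ≠ 0 := div_ne_zero hd0 hlam0
  have hp0 : t * (a * σ p - c' * (b * σ q)) = p := by
    simp only [p, q, map_add, map_mul, map_sub, hσ, hc', AlgEquiv.commutes]
    rw [← hc']
    linear_combination (t * σ t * σ (σ t) * y) * h00 + y * hNt
  have hq0 : t * (a * σ q + b * σ p + c' * (b * σ q)) = q := by
    simp only [p, q, map_add, map_mul, map_sub, hσ, hc', AlgEquiv.commutes]
    rw [← hc']
    linear_combination (t * σ t * σ (σ t) * y) * h10
  rw [torusMat_mul]
  have e : t⁻¹ • torusMat c' p q = torusMat c' (t⁻¹ * p) (t⁻¹ * q) := by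
    ext i j
    fin_cases i <;> fin_cases j <;> simp [torusMat] <;> ring
  rw [e]
  congr 1
  · conv_rhs => rw [← hp0, inv_mul_cancel_left₀ ht0]
  · conv_rhs => rw [← hq0, inv_mul_cancel_left₀ ht0]

end Hilbert90

section Unique

variable {K K' : Type*} [Field K] [Field K'] [Algebra K K'] (σ : K' ≃ₐ[K] K')
  (hfix : ∀ x : K', σ x = x → x ∈ Set.range (algebraMap K K'))
  (hne : σ ≠ 1) (hσ : ∀ x, σ (σ (σ x)) = x)
include hfix hne hσ

/-- At most one twisted class lies over an elliptic invariant. -/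
theorem exists_twConj_eq {c : K} (hc : c ≠ 0) (hc4 : c ≠ 4) (hns : ¬ IsSquare (c ^ 2 - 4 * c))
    {δ δ' : PGL(2, K')} (h : classInv (twNorm (pglSigma σ) δ) = algebraMap K K' c)
    (h' : classInv (twNorm (pglSigma σ) δ') = algebraMap K K' c) :
    ∃ g, twConj (pglSigma σ) g δ = δ' := by
  have hns' : ¬ IsSquare ((algebraMap K K' c) ^ 2 - 4 * algebraMap K K' c) := by
    have := not_isSquare_algebraMap σ hfix hσ hns
    rwa [map_sub, map_pow, map_mul, map_ofNat] at this
  obtain ⟨g₁, hg₁⟩ := exists_twConj_norm_eq σ hσ hc hc4 h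
  obtain ⟨g₂, hg₂⟩ := exists_twConj_norm_eq σ hσ hc hc4 h'
  set e := twConj (pglSigma σ) g₁ δ with he
  set e' := twConj (pglSigma σ) g₂ δ' with he'
  suffices ∃ t, twConj (pglSigma σ) t e = e' by
    obtain ⟨t, ht⟩ := this
    refine ⟨g₂⁻¹ * (t * g₁), ?_⟩
    rw [twConj_mul, twConj_mul, ← he, ht, he', ← twConj_mul, inv_mul_cancel, twConj_one]
  obtain ⟨a, b, g, hg, hgm⟩ := mem_torus_of_norm_eq σ hσ hc hg₁
  obtain ⟨a', b', g', hg', hgm'⟩ := mem_torus_of_norm_eq σ hσ hc hg₂
  set c' := algebraMap K K' c with hc'def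
  let E : GL (Fin 2) K' := g' * g⁻¹
  -- `E` is again a torus element
  have hEcomm : (E : Matrix (Fin 2) (Fin 2) K') * classMat c' = classMat c' * E := by
    have h1 : (g : Matrix (Fin 2) (Fin 2) K') * classMat c' = classMat c' * g :=
      (commute_classMat_iff c' _).mpr ⟨a, b, hg⟩
    have h2 : (g' : Matrix (Fin 2) (Fin 2) K') * classMat c' = classMat c' * g' :=
      (commute_classMat_iff c' _).mpr ⟨a', b', hg'⟩
    have h3 : ((g⁻¹ : GL (Fin 2) K') : Matrix (Fin 2) (Fin 2) K') * classMat c'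
        = classMat c' * ((g⁻¹ : GL (Fin 2) K') : Matrix (Fin 2) (Fin 2) K') := by
      calc ((g⁻¹ : GL (Fin 2) K') : Matrix (Fin 2) (Fin 2) K') * classMat c'
          = ((g⁻¹ : GL (Fin 2) K') : Matrix (Fin 2) (Fin 2) K') *
              ((classMat c' * g) * ((g⁻¹ : GL (Fin 2) K') : Matrix (Fin 2) (Fin 2) K')) := by
            rw [mul_assoc, Units.mul_inv, mul_one]
        _ = classMat c' * ((g⁻¹ : GL (Fin 2) K') : Matrix (Fin 2) (Fin 2) K') := by
            rw [← h1, ← mul_assoc, ← mul_assoc, Units.inv_mul, one_mul]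
    simp only [E, Units.val_mul]
    rw [mul_assoc, h3, ← mul_assoc, h2, mul_assoc]
  obtain ⟨A, B, hAB⟩ := (commute_classMat_iff c' _).mp hEcomm
  have hAB0 : A ≠ 0 ∨ B ≠ 0 := by
    by_contra hcon
    simp only [not_or, not_not] at hcon
    apply E.isUnit.ne_zero
    rw [hAB, hcon.1, hcon.2]
    ext i j
    fin_cases i <;> fin_cases j <;> simp [torusMat]
  have hE : ProjGenLinGroup.mk E = e' * e⁻¹ := by rw [hgm, hgm', ← map_inv, ← map_mul]
  -- its norm is trivial
  let σG : GL (Fin 2) K' →* GL (Fin 2) K' :=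
    GeneralLinearGroup.map σ.toRingEquiv.toRingHom
  have hcommT : ∀ {x y : PGL(2, K')}, x ∈ torus c' → y ∈ torus c' → x * y = y * x := by
    rintro _ _ ⟨x₁, x₂, gx, hgx, rfl⟩ ⟨y₁, y₂, gy, hgy, rfl⟩
    rw [← map_mul, ← map_mul]
    refine congrArg _ (Units.ext ?_)
    rw [Units.val_mul, Units.val_mul, hgx, hgy]
    exact torusMat_mul_comm _ _ _ _ _
  have hstab : ∀ {x : PGL(2, K')}, x ∈ torus c' → pglSigma σ x ∈ torus c' := by
    rintro _ ⟨x₁, x₂, gx, hgx, rfl⟩
    refine ⟨σ x₁, σ x₂, σG gx, ?_, rfl⟩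
    show (gx : Matrix (Fin 2) (Fin 2) K').map σ = _
    rw [hgx, hc'def, map_torusMat]
  have hmemE : ProjGenLinGroup.mk E ∈ torus c' := ⟨A, B, E, hAB, rfl⟩
  have heT : e ∈ torus c' := ⟨a, b, g, hg, hgm⟩
  have hnormE : twNorm (pglSigma σ) (ProjGenLinGroup.mk E) = 1 := by
    set x := ProjGenLinGroup.mk E
    have hx : x * e = e' := by simp [x, hE]
    have h1 : twNorm (pglSigma σ) (x * e)
        = twNorm (pglSigma σ) x * twNorm (pglSigma σ) e := by
      simp only [twNorm, map_mul]
      have c1 := hcommT heT (hstab hmemE)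
      have c2 := hcommT (hstab heT) (hstab (hstab hmemE))
      have c3 := hcommT heT (hstab (hstab hmemE))
      calc x * e * (pglSigma σ x * pglSigma σ e) * (pglSigma σ (pglSigma σ x) * pglSigma σ (pglSigma σ e))
          = x * (e * pglSigma σ x) * (pglSigma σ e * pglSigma σ (pglSigma σ x)) *
              pglSigma σ (pglSigma σ e) := by simp only [mul_assoc]
        _ = x * pglSigma σ x * (e * pglSigma σ (pglSigma σ x)) *
              (pglSigma σ e * pglSigma σ (pglSigma σ e)) := by
            rw [c1, c2]; simp only [mul_assoc]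
        _ = _ := by rw [c3]; simp only [mul_assoc]
    rw [hx, hg₁, hg₂] at h1
    exact mul_right_cancel (h1.symm.trans (one_mul _).symm)
  obtain ⟨lam, hlam⟩ : ∃ lam : K', torusMat c' A B * (torusMat c' (σ A) (σ B) *
      torusMat c' (σ (σ A)) (σ (σ B))) = lam • 1 := by
    have h1 : ProjGenLinGroup.mk (E * (σG E * σG (σG E))) = 1 := by
      rw [← hnormE, twNorm]
      simp only [map_mul, mul_assoc]
      rfl
    rw [ProjGenLinGroup.mk_eq_one, Matrix.GeneralLinearGroup.center_eq_range_scalar] at h1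
    obtain ⟨u, hu⟩ := h1
    refine ⟨u, ?_⟩
    have h2 := congrArg (fun y : GL (Fin 2) K' => (y : Matrix (Fin 2) (Fin 2) K')) hu.symm
    simp only [Units.val_mul] at h2
    have hm : ∀ (x y : K') (z : GL (Fin 2) K'), (z : Matrix (Fin 2) (Fin 2) K') = torusMat c' x y →
        ((σG z : GL (Fin 2) K') : Matrix (Fin 2) (Fin 2) K') = torusMat c' (σ x) (σ y) :=
      fun x y z hz => by
        show (z : Matrix (Fin 2) (Fin 2) K').map σ = _
        rw [hz, hc'def, map_torusMat]
    rw [hm _ _ _ (hm _ _ _ hAB), hm _ _ _ hAB, hAB] at h2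
    rw [h2]
    ext i j
    fin_cases i <;> fin_cases j <;> simp
  obtain ⟨p, q, u, hu0, hpq, hcob⟩ := exists_torus_coboundary σ c hne hσ hns' hAB0 hlam
  let P : GL (Fin 2) K' := GeneralLinearGroup.mkOfDetNeZero (torusMat c' p q)
    (det_torusMat_ne_zero hns' hpq)
  refine ⟨ProjGenLinGroup.mk P, ?_⟩
  have hP : ProjGenLinGroup.mk E * pglSigma σ (ProjGenLinGroup.mk P) = ProjGenLinGroup.mk P := by
    rw [pglSigma, pglEquiv_apply, pglMap_mk, ← map_mul, eq_comm, ProjGenLinGroup.mk_eq_mk_iff]
    refine ⟨Units.mk0 u hu0, Units.ext ?_⟩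
    have hPm : ((GeneralLinearGroup.map σ.toRingEquiv.toRingHom P : GL (Fin 2) K') :
        Matrix (Fin 2) (Fin 2) K') = torusMat c' (σ p) (σ q) := map_torusMat σ c p q
    rw [Units.val_mul, Units.val_mul, hPm, hAB, hcob]
    ext i j
    fin_cases i <;> fin_cases j <;> simp [P, c', Matrix.mul_apply, mul_comm]
  have hPT : ProjGenLinGroup.mk P ∈ torus c' := ⟨p, q, P, rfl, rfl⟩
  have hcm := hcommT hPT heT
  rw [twConj, hcm, mul_assoc, ← eq_inv_mul_iff_mul_eq, mul_inv_eq_iff_eq_mul]
  have hxe : e⁻¹ * e' = ProjGenLinGroup.mk E := by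
    rw [inv_mul_eq_iff_eq_mul, hcommT heT hmemE]
    simp [hE]
  rw [hxe, hP]

omit hne in
/-- The twisted centraliser of a normalised representative is the torus over `K`. -/
theorem twStabilizer_iff {c : K} (hc : c ≠ 0)
    {δ : PGL(2, K')} (h : twNorm (pglSigma σ) δ = pglMap (algebraMap K K') (classRep c hc))
    (g : PGL(2, K')) :
    twConj (pglSigma σ) g δ = δ ↔
      ∃ γ : PGL(2, K), γ * classRep c hc = classRep c hc * γ ∧
        pglMap (algebraMap K K') γ = g := by
  set c' := algebraMap K K' c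
  have hδT : δ ∈ torus c' := mem_torus_of_norm_eq σ hσ hc h
  constructor
  · intro hg
    have h1 := twNorm_twConj (pglSigma σ) (pglSigma_cube σ hσ) g δ
    rw [hg, h] at h1
    have hcm : g * classRep c' ((map_ne_zero _).mpr hc)
        = classRep c' ((map_ne_zero _).mpr hc) * g := by
      rw [← pglMap_classRep (algebraMap K K') c hc]
      exact (eq_mul_inv_iff_mul_eq.mp h1).symm
    have hgd : g * δ = δ * g := by
      obtain ⟨a, b, x, hx, rfl⟩ := (mem_centralizer_classRep_iff _ g).mp hcm
      obtain ⟨a', b', y, hy, rfl⟩ := hδT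
      rw [← map_mul, ← map_mul]
      refine congrArg _ (Units.ext ?_)
      rw [Units.val_mul, Units.val_mul, hx, hy]
      exact torusMat_mul_comm _ _ _ _ _
    have hfixed : pglSigma σ g = g := by
      rw [twConj, hgd, mul_assoc] at hg
      exact (mul_inv_eq_one.mp (mul_eq_left.mp hg)).symm
    obtain ⟨γ, rfl⟩ := exists_pglMap_eq_of_fixed σ hfix hfixed
    refine ⟨γ, ?_, rfl⟩
    rw [← pglMap_classRep (algebraMap K K') c hc] at hcm
    rw [← map_mul, ← map_mul] at hcm
    exact pglMap_injective (algebraMap K K') hcm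
  · rintro ⟨γ, hγ, rfl⟩
    rw [twConj, pglSigma_pglMap]
    have hγT : pglMap (algebraMap K K') γ ∈ torus c' := by
      refine (mem_centralizer_classRep_iff ((map_ne_zero _).mpr hc) _).mp ?_
      rw [← pglMap_classRep (algebraMap K K') c hc, ← map_mul, ← map_mul, hγ]
    obtain ⟨a, b, x, hx, hxe⟩ := hγT
    obtain ⟨a', b', y, hy, rfl⟩ := hδT
    rw [hxe, ← map_mul, ← map_inv, ← map_mul]
    refine congrArg _ ?_
    rw [mul_inv_eq_iff_eq_mul]
    refine Units.ext ?_
    rw [Units.val_mul, Units.val_mul, hx, hy]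
    exact torusMat_mul_comm _ _ _ _ _

end Unique

end Fermat.Agent.LT.Geom
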