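import Fermat.Agent.LT.Geom.Unfold
import Mathlib.MeasureTheory.Integral.Bochner.ContinuousLinearMap
import Mathlib.Analysis.Complex.Norm
import Mathlib.MeasureTheory.Integral.DominatedConvergence
import Mathlib.Analysis.Normed.Module.FiniteDimension

/-!
Unfolding of complex periodised kernels on the weighted measure `μ.withDensity w`.
-/

set_option autoImplicit false

noncomputable section

open MeasureTheory
open scoped ENNReal

namespace Fermat.Agent.LT.Geom

variable {G X S : Type*} [Group G] [Countable G] [MulAction G X] [MeasurableSpace X]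
  [MeasurableConstSMul G X] {μ : Measure X} [SMulInvariantMeasure G X μ]
  [MulAction G S] [Countable S]

/-- The geometric expansion of a complex invariant kernel with absolutely integrable sum. -/
theorem integral_unfold_complex {w : X → ℝ≥0∞} {k : S → X → ℂ} (hw : IsWeight G μ w)
    (hk : IsInvariantKernel G k) (hm : ∀ t, Measurable (k t))
    (hfin : ∫⁻ x, w x * ∑' s : S, ‖k s x‖ₑ ∂μ ≠ ∞)
    {ι : Type*} (rep : ι → S) (hrep : Function.Bijective fun i =>
      (⟦rep i⟧ : MulAction.orbitRel.Quotient G S))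
    (ψ : ι → X → ℝ≥0∞) (hψ : ∀ i, IsWeight (MulAction.stabilizer G (rep i)) μ (ψ i)) :
    (∀ i, Integrable (fun x => (ψ i x).toReal • k (rep i) x) μ) ∧
      ∫ x, ∑' s : S, k s x ∂μ.withDensity w
        = ∑' i, ∫ x, (ψ i x).toReal • k (rep i) x ∂μ := by
  have hu := lintegral_unfold hw (hk.comp fun z => ‖z‖ₑ) (fun t => (hm t).enorm) rep hrep ψ hψ
  have hfin' : ∑' i, ∫⁻ x, ψ i x * ‖k (rep i) x‖ₑ ∂μ ≠ ∞ := hu ▸ hfin
  have : Countable ι := Function.Injective.countable (f := rep) fun a b h =>
    hrep.1 (by simp only [h])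
  have hwlt : ∀ᵐ x ∂μ, w x < ∞ := hw.2.mono fun x hx => by
    have h := ENNReal.le_tsum (f := fun g : G => w (g • x)) 1
    simp only [one_smul, hx] at h
    exact h.trans_lt ENNReal.one_lt_top
  -- every term is integrable
  have hint : ∀ i, Integrable (fun x => (ψ i x).toReal • k (rep i) x) μ := fun i => by
    refine ⟨((hψ i).1.ennreal_toReal.smul (hm _)).aestronglyMeasurable, ?_⟩
    refine lt_of_le_of_lt (lintegral_mono fun x => ?_)
      (ENNReal.ne_top_of_tsum_ne_top hfin' i).lt_top
    rw [enorm_smul, Real.enorm_eq_ofReal ENNReal.toReal_nonneg]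
    exact mul_le_mul_left ENNReal.ofReal_toReal_le _
  refine ⟨hint, ?_⟩
  have hmsum : Measurable fun x => ∑' s : S, ‖k s x‖ₑ :=
    Measurable.tsum fun s => (hm s).enorm
  have hfinw : ∑' s : S, ∫⁻ x, ‖k s x‖ₑ ∂μ.withDensity w ≠ ∞ := by
    rw [← lintegral_tsum fun s => (hm s).enorm.aemeasurable,
      lintegral_withDensity_eq_lintegral_mul μ hw.1 hmsum]
    exact hfin
  have hs : ∀ s, Integrable (k s) (μ.withDensity w) := fun s =>
    ⟨(hm s).aestronglyMeasurable, (ENNReal.ne_top_of_tsum_ne_top hfinw s).lt_top⟩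
  have hsum : Summable fun s => ∫ x, k s x ∂μ.withDensity w := by
    refine Summable.of_norm_bounded
      (g := fun s => (∫⁻ x, ‖k s x‖ₑ ∂μ.withDensity w).toReal) (ENNReal.summable_toReal hfinw)
      fun s => ?_
    refine (norm_integral_le_integral_norm _).trans_eq ?_
    rw [integral_norm_eq_lintegral_enorm (hm s).aestronglyMeasurable]
  -- each real component
  have key : ∀ L : ℂ →L[ℝ] ℝ, (∀ z, |L z| ≤ ‖z‖) →
      L (∫ x, ∑' s : S, k s x ∂μ.withDensity w)
        = ∑' i, L (∫ x, (ψ i x).toReal • k (rep i) x ∂μ) := by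
    intro L hL
    have hLm : ∀ t, Measurable fun x => L (k t x) := fun t =>
      L.continuous.measurable.comp (hm t)
    have hLfin : ∫⁻ x, w x * ∑' s : S, ENNReal.ofReal |L (k s x)| ∂μ ≠ ∞ := by
      refine ne_top_of_le_ne_top hfin (lintegral_mono fun x => ?_)
      refine mul_le_mul_right (ENNReal.tsum_le_tsum fun s => ?_) _
      rw [← ofReal_norm]
      exact ENNReal.ofReal_le_ofReal (hL _)
    have h := integral_unfold hw (hk.comp L) hLm hLfin rep hrep ψ hψ
    have hfinL : ∑' s : S, ∫⁻ x, ‖L (k s x)‖ₑ ∂μ.withDensity w ≠ ∞ := by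
      refine ne_top_of_le_ne_top hfinw (ENNReal.tsum_le_tsum fun s => lintegral_mono fun x => ?_)
      rw [Real.enorm_eq_ofReal_abs, ← ofReal_norm]
      exact ENNReal.ofReal_le_ofReal (hL _)
    calc L (∫ x, ∑' s : S, k s x ∂μ.withDensity w)
        = L (∑' s, ∫ x, k s x ∂μ.withDensity w) := by
          rw [integral_tsum (fun s => (hm s).aestronglyMeasurable) hfinw]
      _ = ∑' s, ∫ x, L (k s x) ∂μ.withDensity w := by
          rw [L.map_tsum hsum]
          exact tsum_congr fun s => (L.integral_comp_comm (hs s)).symm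
      _ = ∫ x, ∑' s, L (k s x) ∂μ.withDensity w :=
          (integral_tsum (fun s => (hLm s).aestronglyMeasurable) hfinL).symm
      _ = ∫ x, (w x).toReal * ∑' s, L (k s x) ∂μ := by
          rw [integral_withDensity_eq_integral_toReal_smul hw.1 hwlt]
          rfl
      _ = ∑' i, ∫ x, (ψ i x).toReal * L (k (rep i) x) ∂μ := h
      _ = _ := by
          refine tsum_congr fun i => ?_
          rw [← L.integral_comp_comm (hint i)]
          exact integral_congr_ae (Filter.Eventually.of_forall fun x => (L.map_smul _ _).symm)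
  have hR : Summable fun i => ∫ x, (ψ i x).toReal • k (rep i) x ∂μ := by
    refine Summable.of_norm_bounded
      (g := fun i => (∫⁻ x, ψ i x * ‖k (rep i) x‖ₑ ∂μ).toReal) (ENNReal.summable_toReal hfin')
      fun i => ?_
    refine (norm_integral_le_integral_norm _).trans ?_
    rw [integral_norm_eq_lintegral_enorm (hint i).1]
    refine ENNReal.toReal_mono (ENNReal.ne_top_of_tsum_ne_top hfin' i) (lintegral_mono fun x => ?_)
    rw [enorm_smul, Real.enorm_eq_ofReal ENNReal.toReal_nonneg]
    exact mul_le_mul_left ENNReal.ofReal_toReal_le _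
  refine Complex.ext ?_ ?_
  · rw [Complex.re_tsum hR]
    exact key Complex.reCLM fun z => Complex.abs_re_le_norm z
  · rw [Complex.im_tsum hR]
    exact key Complex.imCLM fun z => Complex.abs_im_le_norm z

end Fermat.Agent.LT.Geom
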