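import Mathlib.LinearAlgebra.Matrix.GeneralLinearGroup.Projective
import Mathlib.LinearAlgebra.Matrix.GeneralLinearGroup.Defs
import Mathlib.LinearAlgebra.Matrix.Determinant.Basic
import Mathlib.LinearAlgebra.Matrix.Trace
import Mathlib.Tactic.LinearCombination
import Mathlib.Tactic.FieldSimp
import Mathlib.Tactic.FinCases

/-!
Conjugacy classes of `PGL₂` over a field: classes with invariant `c = tr²/det ∉ {0, 4}` are
classified by `c`, and their centralisers are the tori `a + b γ_c`.
-/

set_option autoImplicit false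

noncomputable section

open Matrix
open scoped MatrixGroups

namespace Fermat.Agent.LT.Geom

section Matrices

variable {R : Type*} [CommRing R]

/-- The normal form with trace and determinant `c`. -/
def classMat (c : R) : Matrix (Fin 2) (Fin 2) R := !![0, -c; 1, c]

theorem trace_classMat (c : R) : (classMat c).trace = c := by simp [classMat, Matrix.trace_fin_two]

theorem det_classMat (c : R) : (classMat c).det = c := by simp [classMat, Matrix.det_fin_two]

/-- A general element `a + b γ_c` of the torus of `γ_c`. -/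
def torusMat (c a b : R) : Matrix (Fin 2) (Fin 2) R := !![a, -(c * b); b, a + c * b]

theorem torusMat_eq (c a b : R) : torusMat c a b = a • 1 + b • classMat c := by
  ext i j
  fin_cases i <;> fin_cases j <;> simp [torusMat, classMat, mul_comm]

theorem det_torusMat (c a b : R) :
    (torusMat c a b).det = a ^ 2 + c * a * b + c * b ^ 2 := by
  simp [torusMat, Matrix.det_fin_two]
  ring

theorem torusMat_mul_comm (c a b a' b' : R) :
    torusMat c a b * torusMat c a' b' = torusMat c a' b' * torusMat c a b := by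
  ext i j
  fin_cases i <;> fin_cases j <;> simp [torusMat, Matrix.mul_apply] <;> ring

theorem torusMat_mul (c a b a' b' : R) :
    torusMat c a b * torusMat c a' b' =
      torusMat c (a * a' - c * (b * b')) (a * b' + b * a' + c * (b * b')) := by
  ext i j
  fin_cases i <;> fin_cases j <;> simp [torusMat, Matrix.mul_apply] <;> ring

theorem commute_classMat_iff (c : R) (h : Matrix (Fin 2) (Fin 2) R) :
    h * classMat c = classMat c * h ↔ ∃ a b, h = torusMat c a b := by
  constructor
  · intro e
    have e00 := congrFun (congrFun e 0) 0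
    have e10 := congrFun (congrFun e 1) 0
    simp [classMat, Matrix.mul_apply] at e00 e10
    refine ⟨h 0 0, h 1 0, ?_⟩
    ext i j
    fin_cases i <;> fin_cases j <;> simp [torusMat, e00, e10]
  · rintro ⟨a, b, rfl⟩
    ext i j
    fin_cases i <;> fin_cases j <;> simp [torusMat, classMat, Matrix.mul_apply] <;> ring

end Matrices

section Field

variable {K : Type*} [Field K]

/-- `tr² / det`. -/
def matInv (g : Matrix (Fin 2) (Fin 2) K) : K := g.trace ^ 2 / g.det

theorem matInv_smul {u : K} (hu : u ≠ 0) (g : Matrix (Fin 2) (Fin 2) K) :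
    matInv (u • g) = matInv g := by
  rw [matInv, matInv, Matrix.trace_smul, Matrix.det_smul, Fintype.card_fin, smul_eq_mul, mul_pow,
    mul_div_mul_left _ _ (pow_ne_zero 2 hu)]

theorem matInv_conj (P : GL (Fin 2) K) (g : Matrix (Fin 2) (Fin 2) K) :
    matInv ((P : Matrix (Fin 2) (Fin 2) K) * g *
      ((P⁻¹ : GL (Fin 2) K) : Matrix (Fin 2) (Fin 2) K)) = matInv g := by
  rw [matInv, matInv, Matrix.trace_mul_cycle, ← Units.val_mul, inv_mul_cancel, Units.val_one,
    one_mul, Matrix.det_mul, Matrix.det_mul, mul_right_comm, ← Matrix.det_mul, ← Units.val_mul,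
    mul_inv_cancel, Units.val_one, Matrix.det_one, one_mul]

theorem matInv_classMat (c : K) : matInv (classMat c) = c := by
  rw [matInv, trace_classMat, det_classMat, sq, mul_self_div_self]

/-- A nonscalar matrix with trace and determinant `c` is conjugate to `classMat c`. -/
theorem exists_conj_classMat (g : Matrix (Fin 2) (Fin 2) K) (c : K) (ht : g.trace = c)
    (hd : g.det = c) (hns : g 1 0 ≠ 0 ∨ g 0 1 ≠ 0 ∨ g 0 0 ≠ g 1 1) :
    ∃ P : GL (Fin 2) K, g * (P : Matrix (Fin 2) (Fin 2) K) = P * classMat c := by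
  rw [Matrix.trace_fin_two] at ht
  rw [Matrix.det_fin_two] at hd
  -- columns `v` and `g v`
  have key : ∀ v₀ v₁ : K,
      g * !![v₀, g 0 0 * v₀ + g 0 1 * v₁; v₁, g 1 0 * v₀ + g 1 1 * v₁]
        = !![v₀, g 0 0 * v₀ + g 0 1 * v₁; v₁, g 1 0 * v₀ + g 1 1 * v₁] * classMat c := by
    intro v₀ v₁
    ext i j
    fin_cases i <;> fin_cases j <;> simp [classMat, Matrix.mul_apply]
    · linear_combination (g 0 0 * v₀ + g 0 1 * v₁) * ht - v₀ * hd
    · linear_combination (g 1 0 * v₀ + g 1 1 * v₁) * ht - v₁ * hd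
  obtain ⟨v₀, v₁, hne⟩ : ∃ v₀ v₁ : K,
      (!![v₀, g 0 0 * v₀ + g 0 1 * v₁; v₁, g 1 0 * v₀ + g 1 1 * v₁]).det ≠ 0 := by
    by_cases h10 : g 1 0 = 0
    · by_cases h01 : g 0 1 = 0
      · refine ⟨1, 1, ?_⟩
        have h : g 0 0 ≠ g 1 1 := by tauto
        simp [Matrix.det_fin_two, h10, h01, sub_ne_zero, Ne.symm h]
      · exact ⟨0, 1, by simp [Matrix.det_fin_two, h01]⟩
    · exact ⟨1, 0, by simp [Matrix.det_fin_two, h10]⟩
  exact ⟨GeneralLinearGroup.mkOfDetNeZero _ hne, key v₀ v₁⟩

/-- The invariant on `PGL₂`. -/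
def classInv (γ : PGL(2, K)) : K :=
  Quotient.liftOn γ (fun g : GL (Fin 2) K => matInv (g : Matrix (Fin 2) (Fin 2) K))
    fun g g' h => by
      obtain ⟨u, hu⟩ := ProjGenLinGroup.mk_eq_mk_iff.mp (Quotient.sound h :
        ProjGenLinGroup.mk g = ProjGenLinGroup.mk g')
      rw [← hu]
      have : (↑(g * GeneralLinearGroup.scalar (Fin 2) u) : Matrix (Fin 2) (Fin 2) K)
          = (u : K) • (g : Matrix (Fin 2) (Fin 2) K) := by
        ext i j
        fin_cases i <;> fin_cases j <;> simp [Matrix.mul_apply, mul_comm]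
      rw [this, matInv_smul u.ne_zero]

@[simp]
theorem classInv_mk (g : GL (Fin 2) K) :
    classInv (ProjGenLinGroup.mk g) = matInv (g : Matrix (Fin 2) (Fin 2) K) := rfl

theorem classInv_conj (p γ : PGL(2, K)) : classInv (p * γ * p⁻¹) = classInv γ := by
  induction p using ProjGenLinGroup.induction_on with | mk P =>
  induction γ using ProjGenLinGroup.induction_on with | mk g =>
  rw [← map_inv, ← map_mul, ← map_mul, classInv_mk, classInv_mk, Units.val_mul, Units.val_mul,
    matInv_conj]

/-- The representative of the class with invariant `c`. -/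
def classRep (c : K) (hc : c ≠ 0) : PGL(2, K) :=
  ProjGenLinGroup.mk (GeneralLinearGroup.mkOfDetNeZero (classMat c) (by rwa [det_classMat]))

theorem classInv_classRep (c : K) (hc : c ≠ 0) : classInv (classRep c hc) = c := by
  rw [classRep, classInv_mk]
  exact matInv_classMat c

theorem isConj_classRep {γ : PGL(2, K)} {c : K} (hc : c ≠ 0) (hc4 : c ≠ 4)
    (h : classInv γ = c) : IsConj γ (classRep c hc) := by
  induction γ using ProjGenLinGroup.induction_on with | mk g =>
  rw [classInv_mk, matInv] at h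
  have hd : (g : Matrix (Fin 2) (Fin 2) K).det ≠ 0 :=
    (Matrix.isUnit_iff_isUnit_det (g : Matrix (Fin 2) (Fin 2) K)).mp g.isUnit |>.ne_zero
  have ht : (g : Matrix (Fin 2) (Fin 2) K).trace ≠ 0 := by
    intro ht
    rw [ht, zero_pow (two_ne_zero (α := ℕ)), zero_div] at h
    exact hc h.symm
  let u : Kˣ := Units.mk0 ((g : Matrix (Fin 2) (Fin 2) K).trace /
    (g : Matrix (Fin 2) (Fin 2) K).det) (div_ne_zero ht hd)
  let g' : GL (Fin 2) K := g * GeneralLinearGroup.scalar (Fin 2) u
  have hg' : (g' : Matrix (Fin 2) (Fin 2) K) = (u : K) • (g : Matrix (Fin 2) (Fin 2) K) := by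
    ext i j
    fin_cases i <;> fin_cases j <;> simp [g', Matrix.mul_apply, mul_comm]
  have htr : (g' : Matrix (Fin 2) (Fin 2) K).trace = c := by
    rw [hg', Matrix.trace_smul, smul_eq_mul, ← h]
    simp only [u, Units.val_mk0]
    field_simp
  have hdet : (g' : Matrix (Fin 2) (Fin 2) K).det = c := by
    rw [hg', Matrix.det_smul, Fintype.card_fin, ← h]
    simp only [u, Units.val_mk0]
    field_simp
  have hns : (g' : Matrix (Fin 2) (Fin 2) K) 1 0 ≠ 0 ∨ (g' : Matrix (Fin 2) (Fin 2) K) 0 1 ≠ 0 ∨
      (g' : Matrix (Fin 2) (Fin 2) K) 0 0 ≠ (g' : Matrix (Fin 2) (Fin 2) K) 1 1 := by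
    by_contra hcon
    simp only [not_or, not_not] at hcon
    obtain ⟨h10, h01, h00⟩ := hcon
    rw [Matrix.det_fin_two, h10, h01, ← h00] at hdet
    rw [Matrix.trace_fin_two, ← h00] at htr
    refine hc4 (mul_left_cancel₀ hc ?_)
    linear_combination 4 * hdet -
      ((g' : Matrix (Fin 2) (Fin 2) K) 0 0 + (g' : Matrix (Fin 2) (Fin 2) K) 0 0 + c) * htr
  obtain ⟨P, hP⟩ := exists_conj_classMat _ c htr hdet hns
  refine isConj_iff.mpr ⟨(ProjGenLinGroup.mk P)⁻¹, ?_⟩
  have e : P⁻¹ * g' * P = GeneralLinearGroup.mkOfDetNeZero (classMat c)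
      (by rwa [det_classMat]) := by
    rw [mul_assoc, inv_mul_eq_iff_eq_mul]
    exact Units.ext hP
  rw [inv_inv, classRep, ← e, map_mul, map_mul, map_inv]
  simp [g']

theorem isConj_of_classInv_eq {γ γ' : PGL(2, K)} (h : classInv γ = classInv γ')
    (h0 : classInv γ ≠ 0) (h4 : classInv γ ≠ 4) : IsConj γ γ' :=
  (isConj_classRep h0 h4 rfl).trans (isConj_classRep h0 h4 h.symm).symm

theorem IsConj.classInv_eq {γ γ' : PGL(2, K)} (h : IsConj γ γ') : classInv γ = classInv γ' := by
  obtain ⟨p, rfl⟩ := isConj_iff.mp h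
  exact (classInv_conj p γ).symm

/-- The torus of `γ_c`. -/
def torus (c : K) : Set (PGL(2, K)) :=
  {h | ∃ (a b : K) (g : GL (Fin 2) K),
    (g : Matrix (Fin 2) (Fin 2) K) = torusMat c a b ∧ h = ProjGenLinGroup.mk g}

/-- Centralisers of classes of nonzero trace are tori. -/
theorem mem_centralizer_classRep_iff {c : K} (hc : c ≠ 0) (h : PGL(2, K)) :
    h * classRep c hc = classRep c hc * h ↔ h ∈ torus c := by
  induction h using ProjGenLinGroup.induction_on with | mk g =>
  constructor
  · intro e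
    rw [classRep, ← map_mul, ← map_mul, ProjGenLinGroup.mk_eq_mk_iff] at e
    obtain ⟨u, hu⟩ := e
    have hu' : (u : K) • ((g : Matrix (Fin 2) (Fin 2) K) * classMat c)
        = classMat c * (g : Matrix (Fin 2) (Fin 2) K) := by
      have := congrArg (fun x : GL (Fin 2) K => (x : Matrix (Fin 2) (Fin 2) K)) hu
      simp only [Units.val_mul, GeneralLinearGroup.coe_scalar] at this
      change (g : Matrix (Fin 2) (Fin 2) K) * classMat c * _ = classMat c * _ at this
      rw [← this]
      ext i j
      fin_cases i <;> fin_cases j <;> simp [Matrix.mul_apply, mul_comm] <;> ring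
    -- taking traces of the conjugate forces `u = 1`
    have hgi : (g : Matrix (Fin 2) (Fin 2) K) * ((g⁻¹ : GL (Fin 2) K) : Matrix (Fin 2) (Fin 2) K) = 1 :=
      Units.mul_inv g
    have htr := congrArg
      (fun x => (x * ((g⁻¹ : GL (Fin 2) K) : Matrix (Fin 2) (Fin 2) K)).trace) hu'
    simp only [smul_mul_assoc, Matrix.trace_smul, smul_eq_mul, mul_assoc, hgi, mul_one] at htr
    rw [← mul_assoc, Matrix.trace_mul_cycle, Units.inv_mul, one_mul, trace_classMat] at htr
    have hu1 : (u : K) = 1 := mul_right_cancel₀ hc (by rw [one_mul]; exact htr)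
    rw [hu1, one_smul] at hu'
    obtain ⟨a, b, hab⟩ := (commute_classMat_iff c _).mp hu'
    exact ⟨a, b, g, hab, rfl⟩
  · rintro ⟨a, b, g', hg', e⟩
    rw [e, classRep, ← map_mul, ← map_mul]
    exact congrArg _ (Units.ext ((commute_classMat_iff c _).mpr ⟨a, b, hg'⟩))

/-- `γ_c` is elliptic when `c² - 4c` is not a square: its torus has no singular nonzero element. -/
theorem det_torusMat_ne_zero {c : K} (hns : ¬ IsSquare (c ^ 2 - 4 * c))
    {a b : K} (hab : a ≠ 0 ∨ b ≠ 0) : (torusMat c a b).det ≠ 0 := by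
  intro h
  rw [det_torusMat] at h
  rcases eq_or_ne b 0 with rfl | hb
  · simp at h
    exact hab.elim (fun ha => ha h) (fun h' => h' rfl)
  · refine hns ⟨(2 * a + b * c) / b, ?_⟩
    field_simp
    linear_combination (-4 : K) * h

end Field

end Fermat.Agent.LT.Geom
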