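import Mathlib.MeasureTheory.Group.Action
import Mathlib.MeasureTheory.Group.LIntegral
import Mathlib.MeasureTheory.Integral.Lebesgue.Add
import Mathlib.MeasureTheory.Measure.Prod
import Mathlib.GroupTheory.GroupAction.Basic

/-!
Partitions of unity for group actions: the replacement for quotient measures used on the geometric
side. For a countable group a weight has sum one over each orbit; for a topological group integral
one.
-/

set_option autoImplicit false

noncomputable section

open MeasureTheory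
open scoped ENNReal

namespace Fermat.Agent.LT.Geom

variable (G : Type*) {X : Type*} [Group G] [MulAction G X] [MeasurableSpace X]

/-- `w ≥ 0` with `∑_g w (g x) = 1` for almost every `x`. -/
def IsWeight (μ : Measure X) (w : X → ℝ≥0∞) : Prop :=
  Measurable w ∧ ∀ᵐ x ∂μ, ∑' g : G, w (g • x) = 1

variable {G} {μ : Measure X} [MeasurableConstSMul G X] [SMulInvariantMeasure G X μ]

theorem lintegral_comp_smul (g : G) {F : X → ℝ≥0∞} (hF : Measurable F) :
    ∫⁻ x, F (g • x) ∂μ = ∫⁻ x, F x ∂μ :=
  (measurePreserving_smul g μ).lintegral_comp hF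

variable [Countable G]

theorem ae_smul {p : X → Prop} (h : ∀ᵐ x ∂μ, p x) : ∀ᵐ x ∂μ, ∀ g : G, p (g • x) :=
  ae_all_iff.mpr fun g =>
    (measurePreserving_smul g μ).quasiMeasurePreserving.ae h

/-- Integrating the periodisation of `F` against a weight gives back the integral of `F`. -/
theorem lintegral_weight_mul_tsum {w F : X → ℝ≥0∞} (hw : IsWeight G μ w) (hF : Measurable F) :
    ∫⁻ x, w x * ∑' g : G, F (g • x) ∂μ = ∫⁻ x, F x ∂μ := by
  have hm : ∀ g : G, Measurable fun x => w x * F (g • x) := fun g =>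
    hw.1.mul (hF.comp (measurable_const_smul g))
  have hm' : ∀ g : G, Measurable fun x => w (g • x) * F x := fun g =>
    (hw.1.comp (measurable_const_smul g)).mul hF
  calc ∫⁻ x, w x * ∑' g : G, F (g • x) ∂μ
      = ∑' g : G, ∫⁻ x, w x * F (g • x) ∂μ := by
        rw [← lintegral_tsum fun g => (hm g).aemeasurable]
        simp_rw [ENNReal.tsum_mul_left]
    _ = ∑' g : G, ∫⁻ x, w (g⁻¹ • x) * F x ∂μ := by
        refine tsum_congr fun g => ?_
        rw [← lintegral_comp_smul (μ := μ) g⁻¹ (hm g)]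
        simp_rw [smul_inv_smul]
    _ = ∑' g : G, ∫⁻ x, w (g • x) * F x ∂μ :=
        (Equiv.inv G).tsum_eq fun g => ∫⁻ x, w (g • x) * F x ∂μ
    _ = ∫⁻ x, (∑' g : G, w (g • x)) * F x ∂μ := by
        rw [← lintegral_tsum fun g => (hm' g).aemeasurable]
        simp_rw [ENNReal.tsum_mul_right]
    _ = ∫⁻ x, F x ∂μ := lintegral_congr_ae (hw.2.mono fun x hx => by simp only [hx, one_mul])

/-- A measurable fundamental domain gives a weight. -/
theorem isWeight_indicator {D : Set X} (hD : MeasurableSet D)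
    (h : ∀ᵐ x ∂μ, ∃! g : G, g • x ∈ D) : IsWeight G μ (D.indicator 1) := by
  refine ⟨measurable_one.indicator hD, h.mono fun x hx => ?_⟩
  obtain ⟨g, hg, huniq⟩ := hx
  rw [tsum_eq_single g fun g' hg' => Set.indicator_of_notMem (fun hmem => hg' (huniq g' hmem)) _,
    Set.indicator_of_mem hg, Pi.one_apply]

/-- A weight for a group induces one for each subgroup. -/
theorem exists_isWeight_subgroup {w : X → ℝ≥0∞} (hw : IsWeight G μ w) (H : Subgroup G) :
    ∃ ψ : X → ℝ≥0∞, IsWeight H μ ψ := by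
  classical
  haveI : Countable (G ⧸ H) := QuotientGroup.mk_surjective.countable
  refine ⟨fun x => ∑' q : G ⧸ H, w (q.out • x),
    Measurable.tsum fun q => hw.1.comp (measurable_const_smul _), hw.2.mono fun x hx => ?_⟩
  have hbij : Function.Bijective fun p : H × (G ⧸ H) => p.2.out * (p.1 : G) := by
    constructor
    · rintro ⟨h, q⟩ ⟨h', q'⟩ e
      simp only at e
      have hq : q = q' := by
        have := congrArg (QuotientGroup.mk (s := H)) e
        rwa [QuotientGroup.mk_mul_of_mem _ h.2, QuotientGroup.mk_mul_of_mem _ h'.2,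
          QuotientGroup.out_eq', QuotientGroup.out_eq'] at this
      subst hq
      exact Prod.ext (Subtype.ext (mul_left_cancel e)) rfl
    · intro g
      refine ⟨(⟨((QuotientGroup.mk g : G ⧸ H).out)⁻¹ * g, ?_⟩, QuotientGroup.mk g), ?_⟩
      · exact QuotientGroup.eq.mp (QuotientGroup.out_eq' _)
      · simp
  calc ∑' h : H, ∑' q : G ⧸ H, w (q.out • h • x)
      = ∑' p : H × (G ⧸ H), w (p.2.out • p.1 • x) := (ENNReal.tsum_prod' (f := fun p : H × (G ⧸ H) => w (p.2.out • p.1 • x))).symm
    _ = ∑' p : H × (G ⧸ H), (fun g => w (g • x)) (p.2.out * (p.1 : G)) :=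
        tsum_congr fun p => by
          show _ = w ((p.2.out * (p.1 : G)) • x)
          rw [mul_smul]; rfl
    _ = ∑' g : G, w (g • x) := (Equiv.ofBijective _ hbij).tsum_eq fun g => w (g • x)
    _ = 1 := hx

section Volume

variable {T : Type*} [CommGroup T] [MeasurableSpace T] [MeasurableMul T] [MeasurableInv T]
  [MulAction T X] [MeasurableSMul₂ T X] (ν : Measure T) [SFinite ν]
  [ν.IsMulLeftInvariant] [ν.IsInvInvariant] [SFinite μ] [SMulInvariantMeasure T X μ]

/-- A weight for a continuous group: integral one over almost every orbit. -/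
def IsTorusWeight (μ : Measure X) (φ : X → ℝ≥0∞) : Prop :=
  Measurable φ ∧ ∀ᵐ x ∂μ, ∫⁻ t : T, φ (t • x) ∂ν = 1

/-- The orbital integral of an invariant function. -/
def orbital (μ : Measure X) (φ F : X → ℝ≥0∞) : ℝ≥0∞ := ∫⁻ x, φ x * F x ∂μ

/-- Integration over `Λ \ X` of a `T`-invariant function is `vol (Λ \ T)` times its orbital
integral, for a countable subgroup `Λ` of `T`. -/
theorem lintegral_weight_mul_eq_volume_mul_orbital (Λ : Subgroup T) [Countable Λ]
    {ψ φ F : X → ℝ≥0∞} {η : T → ℝ≥0∞} (hψ : IsWeight Λ μ ψ) (hη : IsWeight Λ ν η)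
    (hφ : IsTorusWeight ν μ φ) (hF : Measurable F)
    (hFT : ∀ (t : T) (x : X), F (t • x) = F x) :
    ∫⁻ x, ψ x * F x ∂μ = (∫⁻ t, η t ∂ν) * orbital μ φ F := by
  haveI : SMulInvariantMeasure Λ X μ :=
    ⟨fun l s hs => measure_preimage_smul (l : T) (μ := μ) (s := s) ..⟩
  haveI : SMulInvariantMeasure Λ T ν :=
    ⟨fun l s hs => measure_preimage_smul (l : T) (μ := ν) (s := s) ..⟩
  have hm2 : Measurable fun p : X × T => ψ p.1 * F p.1 * φ (p.2 • p.1) :=
    ((hψ.1.comp measurable_fst).mul (hF.comp measurable_fst)).mul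
      (hφ.1.comp (measurable_snd.smul measurable_fst))
  have hm2' : Measurable fun p : X × T => ψ (p.2 • p.1) * (F p.1 * φ p.1) :=
    (hψ.1.comp (measurable_snd.smul measurable_fst)).mul
      ((hF.comp measurable_fst).mul (hφ.1.comp measurable_fst))
  have hψT : ∀ᵐ x ∂μ, ∫⁻ t, ψ (t • x) ∂ν = ∫⁻ t, η t ∂ν := by
    -- almost every orbit meets the set where the weight sums to one
    have hmeas : MeasurableSet {x : X | ∑' l : Λ, ψ (l • x) = 1} :=
      (Measurable.tsum fun l : Λ =>
        hψ.1.comp (measurable_const_smul (l : T))) (measurableSet_singleton 1)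
    have hae : ∀ᵐ x ∂μ, ∀ᵐ t ∂ν, ∑' l : Λ, ψ (l • t • x) = 1 :=
      (Measure.ae_ae_comm (μ := μ) (ν := ν) (p := fun x t => ∑' l : Λ, ψ (l • t • x) = 1)
        ((measurable_snd.smul measurable_fst : Measurable fun p : X × T => p.2 • p.1) hmeas)).mpr
        (Filter.Eventually.of_forall fun t : T =>
          (measurePreserving_smul t μ).quasiMeasurePreserving.ae hψ.2)
    refine hae.mono fun x hx => ?_
    have hψx : Measurable fun t : T => ψ (t • x) := hψ.1.comp (measurable_smul_const x)
    have h1 := lintegral_weight_mul_tsum (G := Λ) (μ := ν) hη hψx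
    rw [← h1]
    refine lintegral_congr_ae (hx.mono fun t ht => ?_)
    simp only
    rw [show (∑' l : Λ, ψ ((l • t : T) • x)) = 1 from ?_, mul_one]
    rw [← ht]
    exact tsum_congr fun l => congrArg ψ (smul_assoc (l : T) t x)
  calc ∫⁻ x, ψ x * F x ∂μ
      = ∫⁻ x, ∫⁻ t, ψ x * F x * φ (t • x) ∂ν ∂μ := by
        refine lintegral_congr_ae (hφ.2.mono fun x hx => ?_)
        have hφx : Measurable fun t : T => φ (t • x) := hφ.1.comp (measurable_smul_const x)
        simp only
        rw [lintegral_const_mul _ hφx, hx, mul_one]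
    _ = ∫⁻ t, ∫⁻ x, ψ x * F x * φ (t • x) ∂μ ∂ν := lintegral_lintegral_swap hm2.aemeasurable
    _ = ∫⁻ t, ∫⁻ x, ψ (t⁻¹ • x) * (F x * φ x) ∂μ ∂ν := by
        refine lintegral_congr fun t => ?_
        have hmx : Measurable fun x => ψ x * F x * φ (t • x) :=
          (hψ.1.mul hF).mul (hφ.1.comp (measurable_const_smul t))
        rw [← lintegral_comp_smul (μ := μ) t⁻¹ hmx]
        simp_rw [smul_inv_smul, hFT, mul_assoc]
    _ = ∫⁻ t, ∫⁻ x, ψ (t • x) * (F x * φ x) ∂μ ∂ν :=
        lintegral_inv_eq_self (μ := ν) fun t => ∫⁻ x, ψ (t • x) * (F x * φ x) ∂μ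
    _ = ∫⁻ x, ∫⁻ t, ψ (t • x) * (F x * φ x) ∂ν ∂μ :=
        (lintegral_lintegral_swap hm2'.aemeasurable).symm
    _ = ∫⁻ x, (∫⁻ t, η t ∂ν) * (φ x * F x) ∂μ := by
        refine lintegral_congr_ae (hψT.mono fun x hx => ?_)
        have hψx : Measurable fun t : T => ψ (t • x) := hψ.1.comp (measurable_smul_const x)
        simp only
        rw [lintegral_mul_const _ hψx, hx, mul_comm (F x)]
    _ = (∫⁻ t, η t ∂ν) * orbital μ φ F := lintegral_const_mul _ (hφ.1.mul hF)

end Volume

end Fermat.Agent.LT.Geom
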