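import Fermat.Agent.LT.Geom.HasseTorus
import Fermat.Agent.LT.Tame.SplitPlace

/-!
# The Hasse principle with local norms at the places fixed by the generator

An elliptic invariant is the invariant of a twisted norm as soon as it is one in the completion at
every place fixed by the generator; at the moved places nothing is asked.
-/

set_option autoImplicit false

noncomputable section

open IsDedekindDomain IsDedekindDomain.HeightOneSpectrum NumberField Matrix Fermat.Agent.CFT
open scoped MatrixGroups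

namespace Fermat.Agent.LT.Geom

section TorusNorm

variable {R : Type*} [CommRing R]

/-- The product of two torus elements in coordinates. -/
def coordMul (c : R) (p p' : R × R) : R × R :=
  (p.1 * p'.1 - c * (p.2 * p'.2), p.1 * p'.2 + p.2 * p'.1 + c * (p.2 * p'.2))

/-- The norm of a torus element in coordinates. -/
def coordNorm (s : R → R) (c : R) (p : R × R) : R × R :=
  coordMul c p (coordMul c (s p.1, s p.2) (s (s p.1), s (s p.2)))

theorem torusMat_coordMul (c : R) (p p' : R × R) :
    torusMat c p.1 p.2 * torusMat c p'.1 p'.2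
      = torusMat c (coordMul c p p').1 (coordMul c p p').2 :=
  torusMat_mul c _ _ _ _

theorem torusMat_coordNorm (s : R → R) (c : R) (p : R × R) :
    torusMat c p.1 p.2 * (torusMat c (s p.1) (s p.2) * torusMat c (s (s p.1)) (s (s p.2)))
      = torusMat c (coordNorm s c p).1 (coordNorm s c p).2 := by
  simp only [torusMat_mul]
  rfl

theorem coordNorm_map {R' : Type*} [CommRing R'] (f : R →+* R') {s : R → R} {s' : R' → R'}
    (h : ∀ x, s' (f x) = f (s x)) (c : R) (p : R × R) :
    coordNorm s' (f c) (f p.1, f p.2) = (f (coordNorm s c p).1, f (coordNorm s c p).2) := by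
  simp [coordNorm, coordMul, h]

theorem continuous_coordNorm [TopologicalSpace R] [IsTopologicalRing R] {s : R → R}
    (hs : Continuous s) (c : R) : Continuous (coordNorm s c) := by
  unfold coordNorm coordMul
  fun_prop

end TorusNorm

section Square

variable {K L : Type*} [Field K] [Field L] [Algebra K L] (σ : L ≃ₐ[K] L)
  (hσ : ∀ x, σ (σ (σ x)) = x)

include hσ in
/-- If `γ` is a twisted norm then `γ - 1`, that is `γ² / c`, is exactly a norm from the torus. -/
theorem exists_coordNorm_eq {c : K} (hc : c ≠ 0) {δ : PGL(2, L)}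
    (h : twNorm (pglSigma σ) δ = pglMap (algebraMap K L) (classRep c hc)) :
    ∃ p : L × L, coordNorm σ (algebraMap K L c) p = (-1, 1) := by
  obtain ⟨a, b, g, hg, rfl⟩ := mem_torus_of_norm_eq σ hσ hc h
  set c' := algebraMap K L c with hc'
  have hc0 : c' ≠ 0 := (map_ne_zero _).mpr hc
  have hσc : σ c' = c' := σ.commutes c
  let σG : GL (Fin 2) L →* GL (Fin 2) L := GeneralLinearGroup.map σ.toRingEquiv.toRingHom
  have hσG : ∀ {g : GL (Fin 2) L} {x y : L}, (g : Matrix (Fin 2) (Fin 2) L) = torusMat c' x y →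
      ((σG g : GL (Fin 2) L) : Matrix (Fin 2) (Fin 2) L) = torusMat c' (σ x) (σ y) :=
    fun {g x y} hg => by
      show (g : Matrix (Fin 2) (Fin 2) L).map σ = _
      rw [hg, hc', map_torusMat]
  rw [twNorm, pglMap_classRep, classRep, mul_assoc] at h
  change ProjGenLinGroup.mk g * (ProjGenLinGroup.mk (σG g) * ProjGenLinGroup.mk (σG (σG g))) = _ at h
  rw [← map_mul, ← map_mul, eq_comm, ProjGenLinGroup.mk_eq_mk_iff] at h
  obtain ⟨u, hu⟩ := h
  set n := coordNorm σ c' (a, b) with hn
  have hN : torusMat c' n.1 n.2 = (u : L) • classMat c' := by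
    have h1 := congrArg (fun y : GL (Fin 2) L => (y : Matrix (Fin 2) (Fin 2) L)) hu.symm
    simp only [Units.val_mul, hσG (hσG hg), hσG hg, hg, GeneralLinearGroup.val_mkOfDetNeZero,
      GeneralLinearGroup.coe_scalar] at h1
    rw [hn, ← torusMat_coordNorm, h1]
    ext i j
    fin_cases i <;> fin_cases j <;> simp [classMat, Matrix.mul_apply, mul_comm] <;> rfl
  set d := (torusMat c' a b).det with hd
  have hd0 : d ≠ 0 := by
    rw [hd, ← hg]
    exact ((Matrix.isUnit_iff_isUnit_det _).mp g.isUnit).ne_zero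
  have hdN : d * (σ d * σ (σ d)) = (u : L) ^ 2 * c' := by
    have h1 := congrArg Matrix.det (hN.symm.trans (torusMat_coordNorm σ c' (a, b)).symm)
    rw [Matrix.det_smul, det_classMat, Fintype.card_fin, Matrix.det_mul, Matrix.det_mul] at h1
    rw [h1, hd]
    simp only [det_torusMat, map_add, map_mul, map_pow, hσc]
  refine ⟨(d⁻¹ * (coordMul c' (a, b) (a, b)).1, d⁻¹ * (coordMul c' (a, b) (a, b)).2), ?_⟩
  have hsq : torusMat c' (coordMul c' n n).1 (coordMul c' n n).2
      = ((u : L) ^ 2 * c') • torusMat c' (-1) 1 := by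
    rw [← torusMat_coordMul c' n, hN, Matrix.smul_mul, Matrix.mul_smul, classMat_mul_self, smul_smul,
      smul_smul, sq]
  obtain ⟨e1, e2⟩ := torusMat_injective (hsq.trans (by
    rw [torusMat_eq, torusMat_eq, smul_add, smul_smul, smul_smul] :
      ((u : L) ^ 2 * c') • torusMat c' (-1) 1
        = torusMat c' ((u : L) ^ 2 * c' * -1) ((u : L) ^ 2 * c' * 1)))
  rw [← hdN] at e1 e2
  have hdi : (d * (σ d * σ (σ d)))⁻¹ * (d * (σ d * σ (σ d))) = 1 := inv_mul_cancel₀ (by simp [hd0])
  rw [mul_inv, mul_inv] at hdi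
  refine Prod.ext ?_ ?_
  · simp only [hn, coordNorm, coordMul, map_mul, map_sub, map_add, map_inv₀, hσc] at e1 ⊢
    linear_combination (d⁻¹ * ((σ d)⁻¹ * (σ (σ d))⁻¹)) * e1 - hdi
  · simp only [hn, coordNorm, coordMul, map_mul, map_sub, map_add, map_inv₀, hσc] at e2 ⊢
    linear_combination (d⁻¹ * ((σ d)⁻¹ * (σ (σ d))⁻¹)) * e2 + hdi

end Square

section Embedding

variable {K : Type*} [Field K] [NumberField K] {q : Nat.Primes} (j : K →+* Omega q)

omit [NumberField K] in
theorem norm_map_integer_le_one (x : 𝓞 K) : ‖j (x : K)‖ ≤ 1 := by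
  have h1 : IsIntegral ℤ (j (x : K)) := (RingOfIntegers.isIntegral_coe x).map j.toIntAlgHom
  have h2 := (Valuation.integer.integers (NormedField.valuation (K := Omega q))).mem_of_integral
    (x := j (x : K)) (h1.tower_top)
  exact_mod_cast h2

theorem norm_natCast_prime_lt_one {q : Nat.Primes} : ‖((q : ℕ) : Omega q)‖ < 1 := by
  rw [← map_natCast (algebraMap ℚ_[(q : ℕ)] (Omega q)), norm_algebraMap', Padic.norm_p]
  exact inv_lt_one_of_one_lt₀ (by exact_mod_cast q.2.one_lt)

/-- The integers small under `j`. -/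
def embIdeal : Ideal (𝓞 K) where
  carrier := {x | ‖j (x : K)‖ < 1}
  zero_mem' := by simp
  add_mem' := fun {a b} ha hb => by
    rw [Set.mem_ofPred_eq] at *
    show ‖j ((a : K) + b)‖ < 1
    rw [map_add]
    exact (IsUltrametricDist.norm_add_le_max _ _).trans_lt (max_lt ha hb)
  smul_mem' := fun r a ha => by
    rw [Set.mem_ofPred_eq] at *
    show ‖j ((r : K) * a)‖ < 1
    rw [map_mul, norm_mul]
    exact (mul_le_of_le_one_left (norm_nonneg _) (norm_map_integer_le_one j r)).trans_lt ha

theorem mem_embIdeal {x : 𝓞 K} : x ∈ embIdeal j ↔ ‖j (x : K)‖ < 1 := Iff.rfl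

theorem embIdeal_isPrime : (embIdeal j).IsPrime := by
  refine Ideal.isPrime_iff.2 ⟨fun h => ?_, fun {a b} hab => ?_⟩
  · have h1 := (Ideal.eq_top_iff_one _).1 h
    simp [mem_embIdeal] at h1
  · rw [mem_embIdeal, mem_embIdeal]
    rw [mem_embIdeal, RingOfIntegers.coe_eq_algebraMap, map_mul (algebraMap (𝓞 K) K), map_mul j,
      norm_mul] at hab
    by_contra h
    rw [not_or, not_lt, not_lt] at h
    exact not_le.2 hab (one_le_mul_of_one_le_of_one_le h.1 h.2)

theorem embIdeal_ne_bot : embIdeal j ≠ ⊥ := by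
  intro h
  have h1 : ((q : ℕ) : 𝓞 K) ∈ embIdeal j := by
    rw [mem_embIdeal, RingOfIntegers.coe_eq_algebraMap, map_natCast (algebraMap (𝓞 K) K),
      map_natCast j]
    exact norm_natCast_prime_lt_one
  rw [h, Ideal.mem_bot, Nat.cast_eq_zero] at h1
  exact q.2.ne_zero h1

/-- The place of the embedding `j`. -/
def embPlace : HeightOneSpectrum (𝓞 K) := ⟨embIdeal j, embIdeal_isPrime j, embIdeal_ne_bot j⟩

theorem mem_embPlace {x : 𝓞 K} : x ∈ (embPlace j).asIdeal ↔ ‖j (x : K)‖ < 1 := Iff.rfl

theorem norm_le_one_of_valuation_le_one {x : K} (hx : (embPlace j).valuation K x ≤ 1) :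
    ‖j x‖ ≤ 1 := by
  obtain ⟨n, ⟨d, hd⟩, hnd⟩ := exists_primeCompl_mul_eq_of_integer (embPlace j) x hx
  have hd1 : ‖j (d : K)‖ = 1 :=
    le_antisymm (norm_map_integer_le_one j d) (not_lt.1 fun h => hd h)
  have h := congrArg (fun y => ‖j y‖) hnd
  simp only [map_mul, norm_mul] at h
  change ‖j x‖ * ‖j (d : K)‖ = ‖j (n : K)‖ at h
  rw [hd1, mul_one] at h
  exact h.trans_le (norm_map_integer_le_one j n)

/-- `j` is continuous for the topology of its place: small at the place is small in norm. -/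
theorem exists_nhds_norm_lt {η : ℝ} (hη : 0 < η) :
    ∃ W ∈ nhds (0 : (embPlace j).adicCompletion K),
      ∀ x : K, (x : (embPlace j).adicCompletion K) ∈ W → ‖j x‖ < η := by
  obtain ⟨π, hπ, hπ0⟩ : ∃ π : 𝓞 K, π ∈ (embPlace j).asIdeal ∧ π ≠ 0 :=
    Submodule.exists_mem_ne_zero_of_ne_bot (embPlace j).ne_bot
  obtain ⟨n, hn⟩ := exists_pow_lt_of_lt_one hη ((mem_embPlace j).1 hπ)
  have hπK : ((π : K)) ≠ 0 := by simpa using hπ0
  set t : (embPlace j).adicCompletion K :=
    algebraMap K ((embPlace j).adicCompletion K) ((π : K) ^ n) with ht_def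
  have ht : Valued.v.restrict t ≠ 0 := by
    rw [ne_eq, Valuation.restrict_eq_zero_iff, ht_def, algebraMap_adicCompletion,
      Function.comp_apply, Algebra.algebraMap_self, RingHom.id_apply, adicCompletion.valued_coe]
    exact (Valuation.ne_zero_iff _).2 (pow_ne_zero _ hπK)
  refine ⟨{y | Valued.v.restrict y < Valued.v.restrict t},
    Valued.mem_nhds_zero.2 ⟨Units.mk0 _ ht, Set.Subset.rfl⟩, fun x hx => ?_⟩
  rw [Set.mem_ofPred_eq, Valuation.restrict_lt_iff, ht_def, algebraMap_adicCompletion,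
    Function.comp_apply, Algebra.algebraMap_self, RingHom.id_apply, adicCompletion.valued_coe,
    adicCompletion.valued_coe] at hx
  have h1 := norm_le_one_of_valuation_le_one j (x := x / (π : K) ^ n)
    (by rw [map_div₀]; exact (div_le_one₀ ((Valuation.pos_iff _).2 (pow_ne_zero _ hπK))).2 hx.le)
  rw [map_div₀, norm_div, div_le_one (by
    rw [norm_pos_iff, map_ne_zero]; exact pow_ne_zero _ hπK), map_pow, norm_pow] at h1
  exact h1.trans_lt hn

end Embedding

section Hasse

variable {K K' : Type*} [Field K] [NumberField K] [Field K'] [NumberField K'] [Algebra K K']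
  (σ : K' ≃ₐ[K] K')

/-- `c` is the invariant of a twisted norm in the completion at `w`. -/
def IsLocalNorm (c : K) (hc : c ≠ 0) (w : HeightOneSpectrum (𝓞 K')) : Prop :=
  ∃ s : w.adicCompletion K' ≃+* w.adicCompletion K',
    Continuous s ∧ (∀ x : K', s (x : w.adicCompletion K') = (σ x : K')) ∧
      ∃ δ : PGL(2, w.adicCompletion K'), twNorm (pglEquiv s) δ =
        pglMap ((algebraMap K' (w.adicCompletion K')).comp (algebraMap K K')) (classRep c hc)

variable (hfix : ∀ x : K', σ x = x → x ∈ Set.range (algebraMap K K'))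
  (hσ : ∀ x, σ (σ (σ x)) = x) {ζ : K} (hζ : ζ ^ 2 + ζ + 1 = 0) {θ : K'} (hθ : θ ≠ 0)
  (hσθ : σ θ = algebraMap K K' ζ * θ)

omit [NumberField K] in
include hσ in
theorem IsLocalNorm.exists_coordNorm_eq {c : K} {hc : c ≠ 0} {w : HeightOneSpectrum (𝓞 K')}
    {s : w.adicCompletion K' ≃+* w.adicCompletion K'} (hs : Continuous s)
    (hsσ : ∀ x : K', s (x : w.adicCompletion K') = (σ x : K')) {δ : PGL(2, w.adicCompletion K')}
    (hδ : twNorm (pglEquiv s) δ =
      pglMap ((algebraMap K' (w.adicCompletion K')).comp (algebraMap K K')) (classRep c hc)) :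
    ∃ p, coordNorm s (algebraMap K' (w.adicCompletion K') (algebraMap K K' c)) p = (-1, 1) := by
  have h3 : ∀ x, s (s (s x)) = x := congrFun <| DenseRange.equalizer (denseRange_algebraMap K' w)
    (hs.comp (hs.comp hs)) continuous_id (funext fun a => by
      simp only [Function.comp_apply, algebraMap_adicCompletion, Algebra.algebraMap_self,
        RingHom.id_apply, hsσ, hσ])
  have hK : ∀ a : K, s (algebraMap K' _ (algebraMap K K' a))
      = algebraMap K' (w.adicCompletion K') (algebraMap K K' a) := fun a => by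
    simp only [algebraMap_adicCompletion, Function.comp_apply, Algebra.algebraMap_self,
      RingHom.id_apply, hsσ, σ.commutes]
  let _ : Algebra K (w.adicCompletion K') := ((algebraMap K' (w.adicCompletion K')).comp (algebraMap K K')).toAlgebra
  exact Geom.exists_coordNorm_eq (K := K) (AlgEquiv.ofRingEquiv (f := s) hK) h3 hc hδ

include hfix hσ hζ hθ hσθ in
/-- **Hasse principle, place by place.** If `c` is a local norm at each place fixed by the
generator then it is a global one. -/
theorem exists_twNorm_of_isLocalNorm {c : K} (hc : c ≠ 0) (hns : ¬ IsSquare (c ^ 2 - 4 * c))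
    (h : ∀ w : HeightOneSpectrum (𝓞 K'), Tame.placePerm σ.toRingEquiv w = w →
      IsLocalNorm σ c hc w) :
    ∃ δ : PGL(2, K'), twNorm (pglSigma σ) δ = pglMap (algebraMap K K') (classRep c hc) := by
  refine exists_twNorm_of_local_approx σ hfix hσ hζ hθ hσθ hc hns fun q j r hr => ?_
  set w := embPlace j with hw
  set ε := ‖(3 : Omega q)‖ ^ 2
  have hε : 0 < ε := pow_pos norm_three_pos 2
  have hε1 : ε ≤ 1 := pow_le_one₀ (norm_nonneg _) norm_three_le_one
  by_cases hfixw : Tame.placePerm σ.toRingEquiv w = w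
  · refine Or.inr ?_
    obtain ⟨s, hs, hsσ, δ, hδ⟩ := h w hfixw
    obtain ⟨p, hp⟩ := IsLocalNorm.exists_coordNorm_eq σ hσ hs hsσ hδ
    set ι := algebraMap K' (w.adicCompletion K')
    have hιs : ∀ x, s (ι x) = ι (σ x) := fun x => by
      simp only [ι, algebraMap_adicCompletion, Function.comp_apply, Algebra.algebraMap_self,
        RingHom.id_apply, hsσ]
    set c' := algebraMap K K' c
    have hr1 : r - 1 ≠ 0 := fun e => by
      rw [sub_eq_zero.1 e] at hr
      simp at hr
    obtain ⟨η, hη0, hη, hηr⟩ : ∃ η : ℝ, 0 < η ∧ η < ε * ‖r - 1‖ ∧ η * ‖r‖ < ε * ‖r - 1‖ := by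
      have he : 0 < ε * ‖r - 1‖ := mul_pos hε (norm_pos_iff.2 hr1)
      refine ⟨ε * ‖r - 1‖ / (‖r‖ + 2), by positivity, ?_, ?_⟩
      · rw [div_lt_iff₀ (by positivity)]; nlinarith [norm_nonneg r]
      · rw [div_mul_eq_mul_div, div_lt_iff₀ (by positivity)]; nlinarith [norm_nonneg r]
    obtain ⟨W, hW, hWj⟩ := exists_nhds_norm_lt j hη0
    have hcont : Continuous fun x => coordNorm s (ι c') x - (-1, 1) :=
      (continuous_coordNorm hs _).sub continuous_const
    have hN := hcont.continuousAt (x := p) |>.preimage_mem_nhds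
      (t := W ×ˢ W) (by rw [hp, sub_self]; exact prod_mem_nhds hW hW)
    obtain ⟨U, hU, hUo, hpU⟩ := mem_nhds_iff.1 hN
    obtain ⟨⟨a, b⟩, hab⟩ := ((denseRange_algebraMap K' w).prodMap
      (denseRange_algebraMap K' w)).exists_mem_open hUo ⟨p, hpU⟩
    have hab' := hU hab
    rw [Set.mem_preimage, show Prod.map ι ι (a, b) = (ι a, ι b) from rfl,
      coordNorm_map ι hιs c' (a, b), Set.mem_prod] at hab'
    set n := coordNorm σ c' (a, b) with hn
    have hW' : ∀ x : K', ι x ∈ W → ‖j x‖ < η := fun x hx => hWj x (by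
      simpa only [ι, algebraMap_adicCompletion, Function.comp_apply, Algebra.algebraMap_self,
        RingHom.id_apply] using hx)
    have hp1 : ‖j (n.1 + 1)‖ < η := hW' _ (by
      simpa [map_add, sub_neg_eq_add] using hab'.1)
    have hp2 : ‖j (n.2 - 1)‖ < η := hW' _ (by simpa [map_sub] using hab'.2)
    set Q := quadElt j r a b * quadElt j r (σ a) (σ b) * quadElt j r (σ (σ a)) (σ (σ b)) with hQ
    have hQn : Q = quadElt j r n.1 n.2 := by
      rw [hQ, mul_assoc, quadElt_mul hr, quadElt_mul hr]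
      rfl
    have hdiff : ‖(r - 1) - Q‖ < ε * ‖r - 1‖ := by
      rw [hQn, show (r - 1) - quadElt j r n.1 n.2 = -(j (n.1 + 1)) + -(j (n.2 - 1)) * r by
        simp only [quadElt, map_add, map_sub, map_one]; ring]
      refine (IsUltrametricDist.norm_add_le_max _ _).trans_lt (max_lt ?_ ?_)
      · rw [norm_neg]; exact hp1.trans hη
      · rw [norm_mul, norm_neg]
        exact (mul_le_mul_of_nonneg_right hp2.le (norm_nonneg _)).trans_lt hηr
    have hQ1 : ‖Q‖ = ‖r - 1‖ := by
      have hlt : ‖(r - 1) - Q‖ < ‖r - 1‖ :=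
        hdiff.trans_le (mul_le_of_le_one_left (norm_nonneg _) hε1)
      have e := IsUltrametricDist.norm_add_eq_max_of_norm_ne_norm
        (x := r - 1) (y := -((r - 1) - Q)) (by rw [norm_neg]; exact hlt.ne')
      rwa [show r - 1 + -((r - 1) - Q) = Q by ring, norm_neg, max_eq_left hlt.le] at e
    have hQ0 : Q ≠ 0 := fun e => hr1 (norm_eq_zero.1 (by rw [← hQ1, e, norm_zero]))
    refine ⟨a, b, ?_, ?_⟩
    · by_contra hab0
      rw [not_or, not_not, not_not] at hab0
      exact hQ0 (by rw [hQ, hab0.1, hab0.2]; simp [quadElt])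
    · rw [← hQ, div_sub_one hQ0, norm_div, hQ1, div_lt_iff₀ (norm_pos_iff.2 hr1)]
      exact hdiff
  · refine Or.inl ?_
    let v : HeightOneSpectrum (𝓞 K) := embPlace (j.comp (algebraMap K K'))
    have P : Tame.SplitPlace σ v w :=
      { order_three := hσ
        fixed := hfix
        above := fun x => by
          rw [hw, mem_embPlace, mem_embPlace]
          rfl
        moved := hfixw }
    obtain ⟨W, hW, hWj⟩ := exists_nhds_norm_lt j (η := ε / ‖j θ‖)
      (div_pos hε (norm_pos_iff.2 ((map_ne_zero j).2 hθ)))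
    obtain ⟨y, hy⟩ := P.emb_surjective ((θ⁻¹ : K') : w.adicCompletion K')
    set f := fun z => P.emb z - ((θ⁻¹ : K') : w.adicCompletion K')
    have hf : Continuous f :=
      (Tame.continuous_completionEmb _ _ _ _).sub continuous_const
    obtain ⟨U, hU, hUo, hyU⟩ := mem_nhds_iff.1
      (hf.continuousAt (x := y) |>.preimage_mem_nhds (t := W) (by simpa [f, hy] using hW))
    obtain ⟨a, ha⟩ := (denseRange_algebraMap K v).exists_mem_open hUo ⟨y, hyU⟩
    have ha' : ‖j (algebraMap K K' a - θ⁻¹)‖ < ε / ‖j θ‖ := hWj _ (by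
      have := hU ha
      simp only [Set.mem_preimage, f, algebraMap_adicCompletion, Function.comp_apply,
        Algebra.algebraMap_self, RingHom.id_apply, P.emb_coe] at this
      rw [← FinitePlace.embedding_apply, ← FinitePlace.embedding_apply, ← map_sub,
        FinitePlace.embedding_apply] at this
      exact this)
    refine ⟨a, 0, ?_⟩
    set z := j θ * j (algebraMap K K' a) with hz
    have hz1 : ‖z - 1‖ < ε := by
      rw [hz, show j θ * j (algebraMap K K' a) - 1 = j θ * j (algebraMap K K' a - θ⁻¹) by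
        rw [map_sub, map_inv₀, mul_sub, mul_inv_cancel₀ ((map_ne_zero j).2 hθ)], norm_mul]
      rwa [lt_div_iff₀' (norm_pos_iff.2 ((map_ne_zero j).2 hθ))] at ha'
    have hz0 : ‖z‖ ≤ 1 := by
      rw [← sub_add_cancel z 1]
      exact (IsUltrametricDist.norm_add_le_max _ _).trans
        (max_le (hz1.le.trans hε1) norm_one.le)
    rw [show j θ ^ 3 * quadElt (j.comp (algebraMap K K')) r a 0 ^ 3 - 1
        = (z - 1) * (z * z + (z + 1)) by simp [quadElt, hz]; ring, norm_mul]
    refine lt_of_le_of_lt (mul_le_of_le_one_right (norm_nonneg _) ?_) hz1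
    refine (IsUltrametricDist.norm_add_le_max _ _).trans (max_le ?_ ?_)
    · rw [norm_mul]; exact mul_le_one₀ hz0 (norm_nonneg _) hz0
    · exact (IsUltrametricDist.norm_add_le_max _ _).trans (max_le hz0 norm_one.le)

include hfix hσ hζ hθ hσθ in
/-- Without a global norm some fixed place has no local norm. -/
theorem exists_place_not_isLocalNorm {c : K} (hc : c ≠ 0) (hns : ¬ IsSquare (c ^ 2 - 4 * c))
    (hno : ∀ δ : PGL(2, K'), twNorm (pglSigma σ) δ ≠ pglMap (algebraMap K K') (classRep c hc)) :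
    ∃ w : HeightOneSpectrum (𝓞 K'), Tame.placePerm σ.toRingEquiv w = w ∧
      ¬ IsLocalNorm σ c hc w := by
  by_contra hcon
  push Not at hcon
  obtain ⟨δ, hδ⟩ := exists_twNorm_of_isLocalNorm σ hfix hσ hζ hθ hσθ hc hns hcon
  exact hno δ hδ

/-- The non-existence read over the completion of the base. -/
theorem twNorm_ne_of_not_isLocalNorm {c : K} {hc : c ≠ 0} {w : HeightOneSpectrum (𝓞 K')}
    {v : HeightOneSpectrum (𝓞 K)} (hw : ¬ IsLocalNorm σ c hc w)
    {s : w.adicCompletion K' ≃+* w.adicCompletion K'} (hs : Continuous s)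
    (hsσ : ∀ x : K', s (x : w.adicCompletion K') = (σ x : K'))
    {e : v.adicCompletion K →+* w.adicCompletion K'}
    (he : ∀ x : K, e (x : v.adicCompletion K) = (algebraMap K K' x : K'))
    (δ : PGL(2, w.adicCompletion K')) :
    twNorm (pglEquiv s) δ ≠
      pglMap e (pglMap (algebraMap K (v.adicCompletion K)) (classRep c hc)) := by
  intro hδ
  refine hw ⟨s, hs, hsσ, δ, hδ.trans ?_⟩
  rw [pglMap_pglMap]
  congr 1
  refine congrArg pglMap (RingHom.ext fun x => ?_)
  simp only [RingHom.comp_apply, algebraMap_adicCompletion, Function.comp_apply,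
    Algebra.algebraMap_self, RingHom.id_apply, he]

end Hasse

end Fermat.Agent.LT.Geom
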