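import Fermat.Agent.CFT.Global.LocalPowers
import Fermat.Agent.CFT.Interface.GlobalFields

/-!
# The Hasse norm theorem for a cubic Kummer step, with elementary local conditions

The local conditions are approximations: at each embedding, either the radicand is close to a
cube or the element is close to a norm times a cube.
-/

set_option autoImplicit false

noncomputable section

open ExtCitation Fermat.Agent.CFT

namespace Fermat.Agent.LT.Geom

section Root

variable {q : Nat.Primes}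

theorem norm_three_le_one : ‖(3 : Omega q)‖ ≤ 1 := by
  exact_mod_cast IsUltrametricDist.norm_natCast_le_one (Omega q) 3

theorem norm_three_pos : 0 < ‖(3 : Omega q)‖ := norm_pos_iff.2 (by norm_num)

/-- An element very close to `1` has a cube root close to `1`. -/
theorem exists_cubeRoot_close {z : Omega q} (hz : ‖z - 1‖ < ‖(3 : Omega q)‖ ^ 2) :
    ∃ w : Omega q, w ^ 3 = z ∧ ‖w - 1‖ ^ 2 < ‖(3 : Omega q)‖ := by
  obtain ⟨w, hw⟩ := IsAlgClosed.exists_pow_nat_eq z (show 0 < 3 by norm_num)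
  obtain ⟨ζ, hζ⟩ := IsAlgClosed.exists_eq_mul_self (-3 : Omega q)
  set j : Omega q := (ζ - 1) / 2 with hj
  have hj1 : j ^ 2 + j + 1 = 0 := by
    rw [hj]; field_simp; linear_combination -hζ
  have hprod : (w - 1) * (j * w - 1) * (j ^ 2 * w - 1) = z - 1 := by
    linear_combination hw + (w + (j - 1) * w ^ 3 - j * w ^ 2) * hj1
  have hlt : ‖w - 1‖ ^ 2 * ‖j * w - 1‖ ^ 2 * ‖j ^ 2 * w - 1‖ ^ 2
      < ‖(3 : Omega q)‖ ^ 3 := by
    have h1 : ‖z - 1‖ ^ 2 < (‖(3 : Omega q)‖ ^ 2) ^ 2 :=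
      pow_lt_pow_left₀ hz (norm_nonneg _) (by norm_num)
    have h2 : (‖(3 : Omega q)‖ ^ 2) ^ 2 ≤ ‖(3 : Omega q)‖ ^ 3 := by
      rw [← pow_mul]
      exact pow_le_pow_of_le_one (norm_nonneg _) norm_three_le_one (by norm_num)
    calc _ = ‖z - 1‖ ^ 2 := by rw [← hprod, norm_mul, norm_mul]; ring
      _ < _ := h1.trans_le h2
  by_contra hcon
  simp only [not_exists, not_and, not_lt] at hcon
  have e : ∀ k : ℕ, (j ^ k * w) ^ 3 = z := fun k => by
    rw [mul_pow, ← pow_mul, mul_comm k 3, pow_mul,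
      show j ^ 3 = 1 by linear_combination (j - 1) * hj1, one_pow, one_mul, hw]
  have h0 := hcon w hw
  have h1 := hcon _ (e 1)
  have h2 := hcon _ (e 2)
  rw [pow_one] at h1
  have h3 := norm_three_pos (q := q)
  refine not_le.2 hlt ?_
  rw [pow_succ, pow_two]
  exact mul_le_mul (mul_le_mul h0 h1 h3.le (sq_nonneg _)) h2 h3.le (by positivity)

/-- The cube root close to `1` is unique. -/
theorem cubeRoot_close_unique {w w' : Omega q} (he : w' ^ 3 = w ^ 3)
    (h : ‖w - 1‖ ^ 2 < ‖(3 : Omega q)‖) (h' : ‖w' - 1‖ ^ 2 < ‖(3 : Omega q)‖) : w' = w := by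
  by_contra hne
  have hone : ∀ {a : Omega q}, ‖a - 1‖ ^ 2 < ‖(3 : Omega q)‖ → ‖a‖ = 1 := fun {a} ha => by
    have h1 : ‖a - 1‖ < 1 := by
      have := ha.trans_le norm_three_le_one
      exact (pow_lt_one_iff_of_nonneg (norm_nonneg _) (by norm_num)).1 this
    rw [← sub_add_cancel a 1, IsUltrametricDist.norm_add_eq_max_of_norm_ne_norm
      (by rw [norm_one]; exact h1.ne), norm_one, max_eq_right h1.le]
  have h2 : (w' - w) * (w' ^ 2 + w' * w + w ^ 2) = 0 := by linear_combination he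
  have h3 : w' ^ 2 + w' * w + w ^ 2 = 0 :=
    (mul_eq_zero.1 h2).resolve_left (sub_ne_zero.2 hne)
  have h4 : ‖w' - w‖ ^ 2 = ‖(3 : Omega q)‖ := by
    rw [← norm_pow, show (w' - w) ^ 2 = -(3 * (w' * w)) by linear_combination h3, norm_neg,
      norm_mul, norm_mul, hone h, hone h', mul_one, mul_one]
  have h5 : ‖w' - w‖ ≤ max ‖w' - 1‖ ‖w - 1‖ := by
    rw [norm_sub_rev w 1, show w' - w = (w' - 1) + (1 - w) by ring]
    exact IsUltrametricDist.norm_add_le_max _ _
  rcases le_total ‖w' - 1‖ ‖w - 1‖ with hle | hle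
  · exact h4.not_lt ((pow_le_pow_left₀ (norm_nonneg _) (h5.trans (max_le hle le_rfl)) 2).trans_lt h)
  · exact h4.not_lt ((pow_le_pow_left₀ (norm_nonneg _) (h5.trans (max_le le_rfl hle)) 2).trans_lt h')

/-- The cube root close to `1` of a fixed element is fixed. -/
theorem locAct_cubeRoot_close {τ : primeLocalGaloisGroup q} {w : Omega q}
    (hw : ‖w - 1‖ ^ 2 < ‖(3 : Omega q)‖) (hfix : locAct q τ (w ^ 3) = w ^ 3) :
    locAct q τ w = w := by
  refine cubeRoot_close_unique (by rw [← map_pow, hfix]) hw ?_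
  rwa [show ‖locAct q τ w - 1‖ = ‖w - 1‖ by
    rw [← map_one (locAct q τ), ← map_sub, map_one]
    exact congrArg NNReal.toReal (nnnorm_padicAlgCl_algEquiv (q := (q : ℕ)) τ (w - 1))]

end Root

variable {U : Subgroup GQ} {θ : AlgebraicClosure ℚ}

/-- The stabiliser of the radical. -/
def kummerStab (U : Subgroup GQ) (θ : AlgebraicClosure ℚ) : Subgroup GQ :=
  U ⊓ MulAction.stabilizer GQ θ

theorem mem_kummerStab {g : GQ} : g ∈ kummerStab U θ ↔ g ∈ U ∧ g θ = θ := Iff.rfl

variable {ζ : AlgebraicClosure ℚ} (hζ : ζ ^ 2 + ζ + 1 = 0) (hζU : ∀ g ∈ U, g ζ = ζ)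
  (hθ : θ ≠ 0) (hD : ∀ g ∈ U, g (θ ^ 3) = θ ^ 3)

include hζ hD in
theorem apply_radical {g : GQ} (hg : g ∈ U) : g θ = θ ∨ g θ = ζ * θ ∨ g θ = ζ ^ 2 * θ := by
  have h : (g θ - θ) * ((g θ - ζ * θ) * (g θ - ζ ^ 2 * θ)) = 0 := by
    have h1 : g θ ^ 3 = θ ^ 3 := by rw [← map_pow, hD g hg]
    linear_combination h1 + (θ ^ 2 * g θ * ζ - θ * (g θ) ^ 2 - θ ^ 3 * (ζ - 1)) * hζ
  rcases mul_eq_zero.1 h with h | h
  · exact Or.inl (sub_eq_zero.1 h)
  · rcases mul_eq_zero.1 h with h | h
    · exact Or.inr (Or.inl (sub_eq_zero.1 h))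
    · exact Or.inr (Or.inr (sub_eq_zero.1 h))

include hζ hζU hD in
theorem kummerStab_normal : ((kummerStab U θ).subgroupOf U).Normal := by
  constructor
  intro n hn u
  rw [Subgroup.mem_subgroupOf, mem_kummerStab] at hn ⊢
  refine ⟨SetLike.coe_mem _, ?_⟩
  have hn' : (n : GQ) ζ = ζ := hζU _ n.2
  have hfix : ∀ {c : AlgebraicClosure ℚ}, (u⁻¹ : GQ) θ = c * θ → (n : GQ) c = c →
      ((u * n * u⁻¹ : U) : GQ) θ = θ := fun {c} hc hnc => by
    simp only [Subgroup.coe_mul, Subgroup.coe_inv, AlgEquiv.mul_apply]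
    rw [hc, map_mul, hnc, hn.2, ← hc]
    exact (u : GQ).apply_symm_apply θ
  rcases apply_radical hζ hD (U.inv_mem u.2) with h | h | h
  · exact hfix (c := 1) (by rwa [one_mul]) (map_one _)
  · exact hfix h hn'
  · exact hfix h (by rw [map_pow, hn'])

variable {τ : GQ} (hτ : τ ∈ U) (hτθ : τ θ = ζ * θ)

include hζU hτ hτθ in
theorem apply_twice : τ (τ θ) = ζ ^ 2 * θ := by
  rw [hτθ, map_mul, hζU τ hτ, hτθ]; ring

include hζ hζU hτ hτθ

include hD in
theorem mem_projFibre_one_iff [Finite (GQ ⧸ kummerStab U θ)] (h : kummerStab U θ ≤ U)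
    (y : GQ ⧸ kummerStab U θ) :
    y ∈ projFibre h (QuotientGroup.mk 1) ↔
      y = QuotientGroup.mk 1 ∨ y = QuotientGroup.mk τ ∨ y = QuotientGroup.mk (τ * τ) := by
  induction y using QuotientGroup.induction_on with | H g => ?_
  rw [mem_projFibre, quotProj_mk, QuotientGroup.eq, mul_one, inv_mem_iff]
  simp only [eq_comm (a := (QuotientGroup.mk g : GQ ⧸ kummerStab U θ)), QuotientGroup.eq,
    mem_kummerStab]
  constructor
  · intro hg
    rcases apply_radical hζ hD hg with e | e | e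
    · exact Or.inl ⟨by simpa using hg, by simpa using e⟩
    · refine Or.inr (Or.inl ⟨U.mul_mem (U.inv_mem hτ) hg, ?_⟩)
      rw [AlgEquiv.mul_apply, e, ← hτθ]
      exact τ.symm_apply_apply θ
    · refine Or.inr (Or.inr ⟨U.mul_mem (U.inv_mem (U.mul_mem hτ hτ)) hg, ?_⟩)
      rw [AlgEquiv.mul_apply, e, ← apply_twice hζU hτ hτθ, ← AlgEquiv.mul_apply]
      exact (τ * τ).symm_apply_apply θ
  · rintro (⟨h, -⟩ | ⟨h, -⟩ | ⟨h, -⟩)
    · simpa using h
    · simpa using U.mul_mem hτ h
    · simpa [mul_assoc] using U.mul_mem (U.mul_mem hτ hτ) h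

include hθ in
theorem radical_cosets_ne :
    (QuotientGroup.mk 1 : GQ ⧸ kummerStab U θ) ≠ QuotientGroup.mk τ ∧
    (QuotientGroup.mk 1 : GQ ⧸ kummerStab U θ) ≠ QuotientGroup.mk (τ * τ) ∧
    (QuotientGroup.mk τ : GQ ⧸ kummerStab U θ) ≠ QuotientGroup.mk (τ * τ) := by
  have h1 : ζ ≠ 1 := fun e => by norm_num [e] at hζ
  have h2 : ζ ^ 2 ≠ 1 := fun e => by
    have e1 : ζ = -2 := by linear_combination hζ - e
    norm_num [e1] at e
  refine ⟨fun e => ?_, fun e => ?_, fun e => ?_⟩
  · have := (mem_kummerStab.1 (QuotientGroup.eq.1 e)).2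
    simp only [inv_one, one_mul, hτθ] at this
    exact h1 (by simpa [hθ] using this)
  · have := (mem_kummerStab.1 (QuotientGroup.eq.1 e)).2
    simp only [inv_one, one_mul, AlgEquiv.mul_apply] at this
    rw [apply_twice hζU hτ hτθ] at this
    exact h2 (by simpa [hθ] using this)
  · have := (mem_kummerStab.1 (QuotientGroup.eq.1 e)).2
    rw [inv_mul_cancel_left, hτθ] at this
    exact h1 (by simpa [hθ] using this)

include hθ hD in
theorem relIndex_kummerStab [Finite (GQ ⧸ kummerStab U θ)] :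
    (kummerStab U θ).relIndex U = 3 := by
  classical
  have h : kummerStab U θ ≤ U := inf_le_left
  rw [← card_projFibre h (QuotientGroup.mk 1)]
  obtain ⟨n1, n2, n3⟩ := radical_cosets_ne hζ hζU hθ hτ hτθ
  rw [show projFibre h (QuotientGroup.mk 1) = {QuotientGroup.mk 1, QuotientGroup.mk τ,
      QuotientGroup.mk (τ * τ)} by
    ext y; simp [mem_projFibre_one_iff hζ hζU hD hτ hτθ h y, -mem_projFibre]]
  simp [n1, n2, n3]

include hθ hD in
theorem normUnit_kummerStab [Finite (GQ ⧸ kummerStab U θ)] (h : kummerStab U θ ≤ U)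
    {b : (AlgebraicClosure ℚ)ˣ} (hb : b ∈ fixedUnits (kummerStab U θ)) :
    normUnit h b = b * galUnit τ b * galUnit (τ * τ) b := by
  classical
  obtain ⟨n1, n2, n3⟩ := radical_cosets_ne hζ hζU hθ hτ hτθ
  show normFun h (globFun (kummerStab U θ) b) (QuotientGroup.mk 1) = _
  rw [normFun_eq_prod]
  rw [show projFibre h (QuotientGroup.mk 1) = {QuotientGroup.mk 1, QuotientGroup.mk τ,
      QuotientGroup.mk (τ * τ)} by
    ext y; simp [mem_projFibre_one_iff hζ hζU hD hτ hτθ h y, -mem_projFibre]]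
  rw [Finset.prod_insert (by simp [n1, n2]), Finset.prod_pair n3, globFun_mk hb, globFun_mk hb,
    globFun_mk hb, show galUnit (1 : GQ) b = b from Units.ext rfl, mul_assoc]

omit hζ hζU hτ hτθ in
theorem isLevelSubgroup_kummerStab (hU : IsLevelSubgroup Levels.all (MonoidHom.id GQ) U) :
    IsLevelSubgroup Levels.all (MonoidHom.id GQ) (kummerStab U θ) := by
  obtain ⟨F, hF, h⟩ := hU
  have hfin : FiniteDimensional ℚ (IntermediateField.adjoin ℚ {θ}) :=
    IntermediateField.adjoin.finiteDimensional (Algebra.IsIntegral.isIntegral θ)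
  refine ⟨F ⊔ IntermediateField.adjoin ℚ {θ}, Levels.all.sup _ _ hF hfin, fun s hs => ?_⟩
  rw [IntermediateField.mem_fixingSubgroup_iff] at hs
  refine ⟨h s ((IntermediateField.mem_fixingSubgroup_iff _ _).2 fun x hx => ?_), ?_⟩
  · exact hs x ((le_sup_left : F ≤ _) hx)
  · exact hs θ ((le_sup_right : IntermediateField.adjoin ℚ {θ} ≤ _)
      (IntermediateField.mem_adjoin_simple_self ℚ θ))

include hθ hD in
/-- Hasse's norm theorem for `θ`, where each local condition is an approximation. -/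
theorem exists_norm_of_local_approx (hU : IsLevelSubgroup Levels.all (MonoidHom.id GQ) U)
    {x : (AlgebraicClosure ℚ)ˣ} (hx : x ∈ fixedUnits U)
    (hloc : ∀ (q : Nat.Primes) (g : GQ),
      (∃ a : AlgebraicClosure ℚ, (∀ u ∈ U, u a = a) ∧
        ‖padicEmbedding (q : ℕ) (g (θ ^ 3 * a ^ 3)) - 1‖ < ‖(3 : Omega q)‖ ^ 2) ∨
      (∃ y ∈ fixedUnits (kummerStab U θ),
        ‖padicEmbedding (q : ℕ) (g ((x / (y * galUnit τ y * galUnit (τ * τ) y) :
          (AlgebraicClosure ℚ)ˣ) : AlgebraicClosure ℚ)) - 1‖ < ‖(3 : Omega q)‖ ^ 2)) :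
    ∃ y ∈ fixedUnits (kummerStab U θ), x = y * galUnit τ y * galUnit (τ * τ) y := by
  have : Fact (Nat.Prime 3) := ⟨Nat.prime_three⟩
  have := finite_quot_of_isLevelSubgroup (isLevelSubgroup_kummerStab (θ := θ) hU)
  have hle : kummerStab U θ ≤ U := inf_le_left
  have hidx := relIndex_kummerStab hζ hζU hθ hD hτ hτθ
  have hζ1 : ζ ≠ 1 := fun e => by norm_num [e] at hζ
  have hζ3 : ζ ^ 3 = 1 := by linear_combination (ζ - 1) * hζ
  have hμ : ∀ g ∈ U, cycloChar 3 g = 1 := fun g hg => by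
    obtain ⟨i, hi⟩ := exists_muInc_eq (p := 3) (w := Units.mk0 ζ (fun e => by norm_num [e] at hζ))
      (Units.ext (by simpa using hζ3))
    have h1 := gal_muInc (p := 3) g i
    rw [hi, Units.val_mk0, hζU g hg] at h1
    have h2 : muInc 3 i = muInc 3 ((cycloChar 3 g : ZMod 3) * i) :=
      Units.ext (by rw [← h1, hi, Units.val_mk0])
    have hi0 : i ≠ 0 := fun e => hζ1 (by
      have := congrArg Units.val hi
      simpa [e, muInc_zero] using this.symm)
    exact Units.ext (mul_right_cancel₀ hi0 ((muInc_injective h2).symm.trans (one_mul i).symm))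
  have hk : KummerStep 3 (kummerStab U θ) U :=
    ⟨hle, isLevelSubgroup_kummerStab hU, kummerStab_normal hζ hζU hD, hidx, hμ⟩
  suffices ∀ q, ∃ f ∈ placePts q (kummerStab U θ), normFun hk.le f = diag q U x by
    obtain ⟨b, hb, hbn⟩ := hasse_norm (by norm_num) hk hx this
    refine ⟨b, hb, ?_⟩
    rw [normFun_globFun hk.le hb] at hbn
    have h1 := congrFun hbn (QuotientGroup.mk 1)
    rw [globFun_mk (normUnit_mem hk.le hb), globFun_mk hx] at h1
    rw [← normUnit_kummerStab hζ hζU hθ hD hτ hτθ hle hb]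
    exact h1.symm
  intro q
  refine exists_norm_of_forall hle (diag_mem_placePts hx) fun X => ?_
  have hout : ∀ {a : AlgebraicClosure ℚ}, (∀ u ∈ U, u a = a) →
      ∀ {g : GQ}, (QuotientGroup.mk g : GQ ⧸ U) = X → g a = (Quotient.out X : GQ) a := by
    intro a ha g hg
    obtain ⟨u, hu⟩ := QuotientGroup.mk_out_eq_mul U g
    rw [← hg, hu, AlgEquiv.mul_apply, ha _ u.2]
  have hstab : ∀ {t : primeLocalGaloisGroup q}, t ∈ placeStab q U X → ∀ {g : GQ},
      (QuotientGroup.mk g : GQ ⧸ U) = X → g⁻¹ * primeLocalToGlobal q t * g ∈ U := by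
    intro t ht g hg
    have h1 : primeLocalToGlobal q t • X = X := ht
    rw [← hg, MulAction.Quotient.smul_mk, QuotientGroup.eq, smul_eq_mul] at h1
    simpa [mul_assoc] using U.inv_mem h1
  have hequiv : ∀ (t : primeLocalGaloisGroup q) (a : AlgebraicClosure ℚ),
      padicEmbedding (q : ℕ) (primeLocalToGlobal q t a)
        = locAct q t (padicEmbedding (q : ℕ) a) :=
    fun t a => padicEmbedding_localGaloisToGlobal (q : ℕ) t a
  have hfixed : ∀ {a : AlgebraicClosure ℚ}, (∀ u ∈ U, u a = a) →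
      ∀ {t : primeLocalGaloisGroup q}, t ∈ placeStab q U X → ∀ {g : GQ},
      (QuotientGroup.mk g : GQ ⧸ U) = X →
      locAct q t (padicEmbedding (q : ℕ) (g a)) = padicEmbedding (q : ℕ) (g a) := by
    intro a ha t ht g hg
    have h1 := congrArg g (ha _ (hstab ht hg))
    rw [AlgEquiv.mul_apply, AlgEquiv.mul_apply] at h1
    rw [← hequiv]
    exact congrArg _ ((g.apply_symm_apply _).symm.trans h1)
  rcases hloc q (Quotient.out X) with ⟨a, ha, hclose⟩ | ⟨y, hy, hclose⟩
  · refine exists_norm_split hle ?_ (placePts_apply_mem (diag_mem_placePts hx) X)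
    intro t ht Y hY
    induction Y using QuotientGroup.induction_on with | H g => ?_
    rw [quotProj_mk] at hY
    have hDa : ∀ u ∈ U, u (θ ^ 3 * a ^ 3) = θ ^ 3 * a ^ 3 := fun u hu => by
      rw [map_mul, map_pow u a, hD u hu, ha u hu]
    obtain ⟨w, hw3, hw⟩ := exists_cubeRoot_close hclose
    have hwt : locAct q t w = w := by
      refine locAct_cubeRoot_close hw ?_
      rw [hw3, hfixed hDa ht (QuotientGroup.out_eq' X)]
    set r := padicEmbedding (q : ℕ) (g (θ * a))
    set j := padicEmbedding (q : ℕ) (g ζ) with hjdef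
    have hjt : locAct q t j = j := hfixed hζU ht hY
    have hj : j ^ 2 + j + 1 = 0 := by
      have := congrArg (fun z => padicEmbedding (q : ℕ) (g z)) hζ
      simpa [hjdef, map_add, map_pow] using this
    have hr3 : r ^ 3 = w ^ 3 := by
      rw [hw3, ← hout hDa hY, ← mul_pow, map_pow, map_pow]
    have hrt : locAct q t r = r := by
      have h1 : (r - w) * ((r - j * w) * (r - j ^ 2 * w)) = 0 := by
        linear_combination hr3 + (w ^ 2 * r * j - w * r ^ 2 - w ^ 3 * (j - 1)) * hj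
      rcases mul_eq_zero.1 h1 with h | h
      · rw [sub_eq_zero.1 h, hwt]
      · rcases mul_eq_zero.1 h with h | h
        · rw [sub_eq_zero.1 h, map_mul, hjt, hwt]
        · rw [sub_eq_zero.1 h, map_mul, map_pow, hjt, hwt]
    have ha0 : a ≠ 0 := by
      rintro rfl
      simp at hclose
      exact (hclose.trans_le norm_three_le_one).false
    rw [MulAction.Quotient.smul_mk, smul_eq_mul, QuotientGroup.eq]
    have hmem := hstab ht hY
    have hG : primeLocalToGlobal q t (g (θ * a)) = g (θ * a) := by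
      apply (padicEmbedding (q : ℕ)).toRingHom.injective
      exact (hequiv t (g (θ * a))).trans hrt
    have hg0 : (g⁻¹ * primeLocalToGlobal q t * g) θ = θ := by
      have h2 : (g⁻¹ * primeLocalToGlobal q t * g) (θ * a) = θ * a := by
        rw [AlgEquiv.mul_apply, AlgEquiv.mul_apply, hG]
        exact g.symm_apply_apply _
      rw [map_mul, ha _ hmem] at h2
      exact mul_right_cancel₀ ha0 h2
    have := (kummerStab U θ).inv_mem (mem_kummerStab.2 ⟨hmem, hg0⟩)
    simpa [mul_assoc] using this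
  · obtain ⟨w, hw3, hw⟩ := exists_cubeRoot_close hclose
    set z := x / (y * galUnit τ y * galUnit (τ * τ) y)
    have hz : z ∈ fixedUnits U := by
      rw [show z = x / normUnit hle y by rw [normUnit_kummerStab hζ hζU hθ hD hτ hτθ hle hy]]
      exact (fixedUnits U).div_mem hx (normUnit_mem hle hy)
    have hw0 : w ≠ 0 := by
      rintro rfl
      simp at hw
      exact (hw.trans_le norm_three_le_one).false
    have hwu : Units.mk0 w hw0 ∈ locUnits q (placeStab q U X) := fun t ht => by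
      refine locAct_cubeRoot_close hw ?_
      simp only [Units.val_mk0, hw3]
      exact hfixed hz ht (QuotientGroup.out_eq' X)
    obtain ⟨f, hf, hfX⟩ := exists_norm_pow hle hwu
    refine ⟨f * diag q (kummerStab U θ) y, mul_mem hf (diag_mem_placePts hy), ?_⟩
    rw [normFun_mul, Pi.mul_apply, hfX, hidx, normFun_diag hle hy,
      normUnit_kummerStab hζ hζU hθ hD hτ hτθ hle hy]
    have h3 : Units.mk0 w hw0 ^ 3 = iota q (galUnit (Quotient.out X) z) := Units.ext hw3
    rw [h3, diag_apply, diag_apply, globFun_apply, globFun_apply, ← map_mul, ← map_mul,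
      div_mul_cancel]

end Fermat.Agent.LT.Geom
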