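import Fermat.Agent.LT.Geom.TwistedClasses

/-!
# Which elliptic invariants are twisted norms

The class with invariant `c` is a norm as soon as `γ - 1`, a norm one element of the quadratic
algebra `K[γ]`, is a norm up to scalars (its class is the square of that of `γ`).
-/

set_option autoImplicit false

noncomputable section

open Matrix
open scoped MatrixGroups

namespace Fermat.Agent.LT.Geom

theorem classMat_eq_torusMat {R : Type*} [CommRing R] (c : R) : classMat c = torusMat c 0 1 := by
  ext i j
  fin_cases i <;> fin_cases j <;> simp [torusMat, classMat]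

theorem classMat_mul_self {R : Type*} [CommRing R] (c : R) :
    classMat c * classMat c = c • torusMat c (-1) 1 := by
  ext i j
  fin_cases i <;> fin_cases j <;> simp [torusMat, classMat, Matrix.mul_apply] <;> ring

/-- The norm of a product with a fixed element commuting with the conjugates. -/
theorem twNorm_fixed_mul {G : Type*} [Group G] (σ : G ≃* G) {g y : G} (hg : σ g = g)
    (h0 : Commute g y) (h1 : Commute g (σ y)) :
    twNorm σ (g * y) = g * g * g * twNorm σ y := by
  simp only [twNorm, map_mul, hg]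
  calc g * y * (g * σ y) * (g * σ (σ y))
      = g * (y * g) * (σ y * g) * σ (σ y) := by simp only [mul_assoc]
    _ = g * (g * y) * (g * σ y) * σ (σ y) := by rw [h0.eq, h1.eq]
    _ = g * g * (y * g) * σ y * σ (σ y) := by simp only [mul_assoc]
    _ = g * g * g * (y * σ y * σ (σ y)) := by rw [← h0.eq]; simp only [mul_assoc]

variable {K K' : Type*} [Field K] [Field K'] [Algebra K K'] (σ : K' ≃ₐ[K] K')

/-- An elliptic invariant is a norm if `γ - 1` is a norm up to scalars. -/
theorem exists_twNorm_eq_classRep {c : K} (hc : c ≠ 0) {a b μ : K'}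
    (hdet : (torusMat (algebraMap K K' c) a b).det ≠ 0) (hμ : μ ≠ 0)
    (h : torusMat (algebraMap K K' c) a b *
      (torusMat (algebraMap K K' c) (σ a) (σ b) *
        torusMat (algebraMap K K' c) (σ (σ a)) (σ (σ b)))
        = μ • torusMat (algebraMap K K' c) (-1) 1) :
    ∃ δ : PGL(2, K'), twNorm (pglSigma σ) δ = pglMap (algebraMap K K') (classRep c hc) := by
  set c' := algebraMap K K' c with hc'
  have hc0 : c' ≠ 0 := (map_ne_zero _).mpr hc
  let Y : GL (Fin 2) K' := GeneralLinearGroup.mkOfDetNeZero (torusMat c' a b) hdet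
  let γ : GL (Fin 2) K' :=
    GeneralLinearGroup.mkOfDetNeZero (classMat c') (by rwa [det_classMat])
  let σG : GL (Fin 2) K' →* GL (Fin 2) K' := GeneralLinearGroup.map σ.toRingEquiv.toRingHom
  have hσG : ∀ {g : GL (Fin 2) K'} {x y : K'}, (g : Matrix (Fin 2) (Fin 2) K') = torusMat c' x y →
      ((σG g : GL (Fin 2) K') : Matrix (Fin 2) (Fin 2) K') = torusMat c' (σ x) (σ y) :=
    fun {g x y} hg => by
      show (g : Matrix (Fin 2) (Fin 2) K').map σ = _
      rw [hg, hc', map_torusMat]
  set g := pglMap (algebraMap K K') (classRep c hc) with hgdef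
  have hgγ : g = ProjGenLinGroup.mk γ := pglMap_classRep _ c hc
  set y := ProjGenLinGroup.mk Y with hy
  have hcomm : ∀ {Z : GL (Fin 2) K'} {u v : K'}, (Z : Matrix (Fin 2) (Fin 2) K') = torusMat c' u v →
      Commute g (ProjGenLinGroup.mk Z) := fun {Z u v} hZ => by
    rw [Commute, SemiconjBy, hgγ, ← map_mul, ← map_mul]
    refine congrArg _ (Units.ext ?_)
    rw [Units.val_mul, Units.val_mul, hZ]
    simp only [γ, GeneralLinearGroup.val_mkOfDetNeZero, classMat_eq_torusMat]
    exact torusMat_mul_comm _ _ _ _ _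
  have h0 : Commute g y := hcomm (Z := Y) rfl
  have hsy : pglSigma σ y = ProjGenLinGroup.mk (σG Y) := rfl
  have h1 : Commute g (pglSigma σ y) := by rw [hsy]; exact hcomm (hσG (g := Y) rfl)
  have hN : twNorm (pglSigma σ) y = g * g := by
    rw [twNorm, hsy, mul_assoc, show pglSigma σ (ProjGenLinGroup.mk (σG Y))
      = ProjGenLinGroup.mk (σG (σG Y)) from rfl, hy, hgγ, ← map_mul ProjGenLinGroup.mk,
      ← map_mul ProjGenLinGroup.mk, ← map_mul ProjGenLinGroup.mk, eq_comm, ProjGenLinGroup.mk_eq_mk_iff]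
    refine ⟨Units.mk0 (μ / c') (div_ne_zero hμ hc0), Units.ext ?_⟩
    rw [Units.val_mul, Units.val_mul, Units.val_mul, Units.val_mul, hσG (g := Y) rfl,
      hσG (hσG (g := Y) rfl)]
    simp only [γ, Y, GeneralLinearGroup.val_mkOfDetNeZero, classMat_mul_self, h]
    ext i j
    fin_cases i <;> fin_cases j <;> simp [Matrix.mul_apply] <;> field_simp
  refine ⟨g * y⁻¹, ?_⟩
  rw [twNorm_fixed_mul _ (pglSigma_pglMap σ _) h0.inv_right
    (by rw [map_inv]; exact h1.inv_right)]
  have hinv : twNorm (pglSigma σ) y⁻¹ = (twNorm (pglSigma σ) y)⁻¹ := by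
    have hT : ∀ {Z W : GL (Fin 2) K'} {u v u' v' : K'},
        (Z : Matrix (Fin 2) (Fin 2) K') = torusMat c' u v →
        (W : Matrix (Fin 2) (Fin 2) K') = torusMat c' u' v' →
        Commute (ProjGenLinGroup.mk Z) (ProjGenLinGroup.mk W) := fun {Z W _ _ _ _} hZ hW => by
      rw [Commute, SemiconjBy, ← map_mul, ← map_mul]
      refine congrArg _ (Units.ext ?_)
      rw [Units.val_mul, Units.val_mul, hZ, hW]
      exact torusMat_mul_comm _ _ _ _ _
    have e0 := hσG (g := Y) rfl
    have c1 : Commute y (pglSigma σ y) := by rw [hsy]; exact hT (Z := Y) rfl e0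
    have c2 : Commute y (pglSigma σ (pglSigma σ y)) := by
      rw [hsy]; exact hT (Z := Y) rfl (hσG e0)
    have c3 : Commute (pglSigma σ y) (pglSigma σ (pglSigma σ y)) := by
      rw [hsy]; exact hT e0 (hσG e0)
    simp only [twNorm, map_inv]
    rw [_root_.mul_inv_rev, _root_.mul_inv_rev, c1.inv_inv.eq, mul_assoc, c2.inv_inv.eq,
      ← mul_assoc, c3.inv_inv.eq, mul_assoc]
  rw [hinv, hN, ← hgdef]
  group

end Fermat.Agent.LT.Geom
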