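import Fermat.Agent.LT.Geom.Hasse
import Fermat.Agent.LT.Geom.NormExists

/-!
# Norm classes from local approximations (Hasse principle)

`K'/K` is a cubic Kummer extension of number fields and `c` an elliptic invariant. Local
conditions are read at every embedding `j : K' → ℚ̄_q` and every eigenvalue `r` of the normal form.
-/

set_option autoImplicit false

noncomputable section

open ExtCitation Fermat.Agent.CFT Matrix
open scoped MatrixGroups

namespace Fermat.Agent.LT.Geom

section Resolvent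

variable {K K' : Type*} [Field K] [Field K'] [Algebra K K'] {σ : K' ≃ₐ[K] K'}
  (hfix : ∀ x : K', σ x = x → x ∈ Set.range (algebraMap K K'))
  (hσ : ∀ x, σ (σ (σ x)) = x) (h3 : (3 : K') ≠ 0)
  {ζ : K} (hζ : ζ ^ 2 + ζ + 1 = 0) {θ : K'} (hθ : θ ≠ 0)
  (hσθ : σ θ = algebraMap K K' ζ * θ)
include hfix hσ h3 hζ hθ hσθ

/-- A cubic Kummer extension is generated by the radical. -/
theorem exists_radical_coords (x : K') : ∃ p₀ p₁ p₂ : K,
    x = algebraMap K K' p₀ + algebraMap K K' p₁ * θ + algebraMap K K' p₂ * θ ^ 2 := by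
  set z := algebraMap K K' ζ with hz
  have hz1 : z ^ 2 + z + 1 = 0 := by
    rw [hz, ← map_pow, ← map_add, ← map_one (algebraMap K K'), ← map_add, hζ, map_zero]
  have hz0 : z ≠ 0 := fun e => by simp [e] at hz1
  have hzc : σ z = z := σ.commutes ζ
  obtain ⟨p₀, hp₀⟩ := hfix ((x + σ x + σ (σ x)) / 3) (by
    rw [map_div₀, map_add, map_add, hσ, map_ofNat]; ring)
  obtain ⟨p₁, hp₁⟩ := hfix ((x + z ^ 2 * σ x + z * σ (σ x)) / (3 * θ)) (by
    rw [map_div₀, map_add, map_add, map_mul, map_mul, map_mul, map_pow, hσ, map_ofNat, hσθ, hzc]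
    field_simp
    linear_combination (1 - z) * σ x * hz1)
  obtain ⟨p₂, hp₂⟩ := hfix ((x + z * σ x + z ^ 2 * σ (σ x)) / (3 * θ ^ 2)) (by
    rw [map_div₀, map_add, map_add, map_mul, map_mul, map_mul, map_pow, map_pow, hσ, map_ofNat,
      hσθ, hzc]
    field_simp
    linear_combination (1 - z) * (σ x + z * σ (σ x)) * hz1)
  refine ⟨p₀, p₁, p₂, ?_⟩
  rw [hp₀, hp₁, hp₂]
  field_simp
  linear_combination -(σ x + σ (σ x)) * hz1

end Resolvent

section QuadField

variable {L Ω : Type*} [Field L] [Field Ω] (φ : L →+* Ω) (c : L) {r : Ω}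

/-- The element `a + b r`. -/
def quadElt (r : Ω) (a b : L) : Ω := φ a + φ b * r

variable {φ c} (hr : r ^ 2 - φ c * r + φ c = 0)
include hr

theorem quadElt_mul (a b a' b' : L) :
    quadElt φ r a b * quadElt φ r a' b'
      = quadElt φ r (a * a' - c * (b * b')) (a * b' + b * a' + c * (b * b')) := by
  simp only [quadElt, map_sub, map_add, map_mul]
  linear_combination φ b * φ b' * hr

variable (hns : ¬ IsSquare (c ^ 2 - 4 * c))
include hns

theorem quad_root_notMem (a : L) : φ a ≠ r := by
  rintro rfl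
  refine hns ⟨2 * a - c, φ.injective ?_⟩
  simp only [map_sub, map_mul, map_pow, map_ofNat]
  linear_combination -4 * hr

theorem quadElt_injective {a b a' b' : L} (h : quadElt φ r a b = quadElt φ r a' b') :
    a = a' ∧ b = b' := by
  have hb : b = b' := by
    by_contra hne
    refine quad_root_notMem hr hns ((a' - a) / (b - b')) ?_
    rw [map_div₀, div_eq_iff (by rwa [map_ne_zero, sub_ne_zero]), map_sub, map_sub]
    simp only [quadElt] at h
    linear_combination -h
  subst hb
  simp only [quadElt, add_left_inj] at h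
  exact ⟨φ.injective h, rfl⟩

theorem quadElt_eq_zero {a b : L} (h : quadElt φ r a b = 0) : a = 0 ∧ b = 0 :=
  quadElt_injective hr hns (h.trans (by simp [quadElt]))

variable [CharZero Ω]

/-- The field `L(r)`, as an intermediate field of `Ω/ℚ`. -/
def quadField : IntermediateField ℚ Ω where
  carrier := {y | ∃ a b, y = quadElt φ r a b}
  zero_mem' := ⟨0, 0, by simp [quadElt]⟩
  one_mem' := ⟨1, 0, by simp [quadElt]⟩
  add_mem' := by
    rintro _ _ ⟨a, b, rfl⟩ ⟨a', b', rfl⟩
    exact ⟨a + a', b + b', by simp [quadElt]; ring⟩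
  mul_mem' := by
    rintro _ _ ⟨a, b, rfl⟩ ⟨a', b', rfl⟩
    exact ⟨_, _, quadElt_mul hr a b a' b'⟩
  algebraMap_mem' := fun t => by
    have : CharZero L := φ.charZero
    exact ⟨(t : L), 0, by simp [quadElt]⟩
  inv_mem' := by
    rintro _ ⟨a, b, rfl⟩
    by_cases hab : a = 0 ∧ b = 0
    · exact ⟨0, 0, by simp [quadElt, hab.1, hab.2]⟩
    · set N := (torusMat c a b).det
      have hN : N ≠ 0 := det_torusMat_ne_zero hns (not_and_or.mp hab)
      refine ⟨(a + c * b) / N, -b / N, inv_eq_of_mul_eq_one_right ?_⟩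
      rw [quadElt_mul hr]
      have e1 : a * ((a + c * b) / N) - c * (b * (-b / N)) = 1 := by
        field_simp; simp only [N, det_torusMat]; ring
      have e2 : a * (-b / N) + b * ((a + c * b) / N) + c * (b * (-b / N)) = 0 := by
        field_simp; ring
      rw [e1, e2]; simp [quadElt]

theorem mem_quadField {y : Ω} : y ∈ quadField hr hns ↔ ∃ a b, y = quadElt φ r a b := Iff.rfl

theorem root_mem_quadField : r ∈ quadField hr hns := ⟨0, 1, by simp [quadElt]⟩

theorem map_mem_quadField (a : L) : φ a ∈ quadField hr hns := ⟨a, 0, by simp [quadElt]⟩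

theorem finiteDimensional_quadField [CharZero L] [FiniteDimensional ℚ L] :
    FiniteDimensional ℚ (quadField hr hns) := by
  let f : L × L →ₗ[ℚ] Ω :=
    { toFun := fun p => quadElt φ r p.1 p.2
      map_add' := fun p p' => by simp [quadElt]; ring
      map_smul' := fun t p => by simp [quadElt, Rat.smul_def, mul_assoc] }
  have h : (quadField hr hns).toSubalgebra.toSubmodule ≤ LinearMap.range f := by
    rintro y ⟨a, b, rfl⟩
    exact ⟨(a, b), rfl⟩
  exact Submodule.finiteDimensional_of_le h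

end QuadField

variable {K K' : Type*} [Field K] [NumberField K] [Field K'] [NumberField K'] [Algebra K K']
  (σ : K' ≃ₐ[K] K') (hfix : ∀ x : K', σ x = x → x ∈ Set.range (algebraMap K K'))
  (hσ : ∀ x, σ (σ (σ x)) = x) {ζ : K} (hζ : ζ ^ 2 + ζ + 1 = 0) {θ : K'} (hθ : θ ≠ 0)
  (hσθ : σ θ = algebraMap K K' ζ * θ)

include hfix hσ hζ hθ hσθ in
/-- **Hasse principle for norm classes.** If, at every embedding, the radicand is close to a cube
or `γ - 1` is close to a norm times a cube, then `c` is the invariant of a twisted norm. -/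
theorem exists_twNorm_of_local_approx {c : K} (hc : c ≠ 0) (hns : ¬ IsSquare (c ^ 2 - 4 * c))
    (hloc : ∀ (q : Nat.Primes) (j : K' →+* Omega q) (r : Omega q),
      r ^ 2 - j (algebraMap K K' c) * r + j (algebraMap K K' c) = 0 →
      (∃ a b : K, ‖j θ ^ 3 * quadElt (j.comp (algebraMap K K')) r a b ^ 3 - 1‖
          < ‖(3 : Omega q)‖ ^ 2) ∨
      (∃ a b : K', (a ≠ 0 ∨ b ≠ 0) ∧
        ‖(r - 1) / (quadElt j r a b * quadElt j r (σ a) (σ b) * quadElt j r (σ (σ a)) (σ (σ b)))
          - 1‖ < ‖(3 : Omega q)‖ ^ 2)) :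
    ∃ δ : PGL(2, K'), twNorm (pglSigma σ) δ = pglMap (algebraMap K K') (classRep c hc) := by
  have : Fact (Nat.Prime 3) := ⟨Nat.prime_three⟩
  set c' := algebraMap K K' c with hc'
  have hns' : ¬ IsSquare (c' ^ 2 - 4 * c') := by
    have := not_isSquare_algebraMap σ hfix hσ hns
    rwa [map_sub, map_pow, map_mul, map_ofNat] at this
  let φ : K' →+* AlgebraicClosure ℚ :=
    (IsAlgClosed.lift (M := AlgebraicClosure ℚ) (R := ℚ) (S := K')).toRingHom
  let φK : K →+* AlgebraicClosure ℚ := φ.comp (algebraMap K K')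
  obtain ⟨r, hr⟩ := IsAlgClosed.exists_root
    (Polynomial.X ^ 2 - Polynomial.C (φ c') * Polynomial.X + Polynomial.C (φ c'))
    (by
      have h2 : (Polynomial.X ^ 2 - Polynomial.C (φ c') * Polynomial.X
          + Polynomial.C (φ c')).natDegree = 2 := by compute_degree!
      intro h
      rw [Polynomial.degree_eq_natDegree (fun h0 => by simp [h0] at h2), h2] at h
      exact two_ne_zero (α := ℕ) (by exact_mod_cast h))
  simp only [Polynomial.IsRoot.def, Polynomial.eval_add, Polynomial.eval_sub, Polynomial.eval_pow,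
    Polynomial.eval_mul, Polynomial.eval_X, Polynomial.eval_C] at hr
  have hrK : r ^ 2 - φK c * r + φK c = 0 := hr
  set E := quadField hrK hns
  set U : Subgroup GQ := E.fixingSubgroup with hUdef
  have hU : IsLevelSubgroup Levels.all (MonoidHom.id GQ) U :=
    ⟨E, finiteDimensional_quadField hrK hns, fun s hs => hs⟩
  have hUK : ∀ g ∈ U, ∀ a : K, g (φK a) = φK a := fun g hg a =>
    (IntermediateField.mem_fixingSubgroup_iff _ _).1 hg _ (map_mem_quadField hrK hns a)
  have hUr : ∀ g ∈ U, g r = r := fun g hg =>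
    (IntermediateField.mem_fixingSubgroup_iff _ _).1 hg _ (root_mem_quadField hrK hns)
  set z : AlgebraicClosure ℚ := φK ζ with hzdef
  have hz : z ^ 2 + z + 1 = 0 := by
    rw [hzdef, ← map_pow, ← map_add, ← map_one φK, ← map_add, hζ, map_zero]
  set θ₀ := φ θ with hθdef
  have hθ₀ : θ₀ ≠ 0 := (map_ne_zero φ).mpr hθ
  obtain ⟨D, hDθ⟩ := hfix (θ ^ 3) (by
    rw [map_pow, hσθ, mul_pow, ← map_pow,
      show ζ ^ 3 = 1 by linear_combination (ζ - 1) * hζ, map_one, one_mul])
  have hD : ∀ g ∈ U, g (θ₀ ^ 3) = θ₀ ^ 3 := fun g hg => by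
    rw [hθdef, ← map_pow, ← hDθ]; exact hUK g hg D
  have hzU : ∀ g ∈ U, g z = z := fun g hg => hUK g hg ζ
  -- an element moving the radical
  obtain ⟨τ, hτ, hτθ⟩ : ∃ τ ∈ U, τ θ₀ = z * θ₀ := by
    by_contra hno
    simp only [not_exists, not_and] at hno
    have hall : ∀ g ∈ U, g θ₀ = θ₀ := fun g hg => by
      rcases apply_radical hz hD hg with e | e | e
      · exact e
      · exact absurd e (hno g hg)
      · refine absurd ?_ (hno (g * g) (U.mul_mem hg hg))
        rw [AlgEquiv.mul_apply, e, map_mul, map_pow, hzU g hg, e]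
        linear_combination (z ^ 2 - z) * θ₀ * hz
    have hmem : θ₀ ∈ E := by
      rw [← InfiniteGalois.fixedField_fixingSubgroup E, IntermediateField.mem_fixedField_iff]
      exact hall
    obtain ⟨a, b, hab⟩ := hmem
    obtain ⟨e1, e2⟩ := quadElt_injective (φ := φ) hr hns' (a := θ) (b := 0)
      (a' := algebraMap K K' a) (b' := algebraMap K K' b) (by
        rw [show quadElt φ r θ 0 = θ₀ by simp [quadElt, hθdef], hab]; rfl)
    have h1 := hσθ
    rw [e1, AlgEquiv.commutes, ← map_mul] at h1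
    have h2 := (algebraMap K K').injective h1
    have ha : a ≠ 0 := fun ha => hθ (by rw [e1, ha, map_zero])
    have hz1 : ζ = 1 := (mul_eq_right₀ ha).mp h2.symm
    rw [hz1] at hζ
    norm_num at hζ
  have h3 : (3 : K') ≠ 0 := by norm_num
  have hτφ : ∀ x, τ (φ x) = φ (σ x) := fun x => by
    obtain ⟨p₀, p₁, p₂, rfl⟩ := exists_radical_coords hfix hσ h3 hζ hθ hσθ x
    simp only [map_add, map_mul, map_pow, AlgEquiv.commutes, hσθ, ← hθdef,
      show ∀ p, φ (algebraMap K K' p) = φK p from fun p => rfl, hUK τ hτ, hτθ, hzdef]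
  have hE' : ∀ g ∈ kummerStab U θ₀, ∀ x, g (φ x) = φ x := fun g hg x => by
    obtain ⟨hgU, hgθ⟩ := mem_kummerStab.1 hg
    obtain ⟨p₀, p₁, p₂, rfl⟩ := exists_radical_coords hfix hσ h3 hζ hθ hσθ x
    simp only [map_add, map_mul, map_pow, ← hθdef,
      show ∀ p, φ (algebraMap K K' p) = φK p from fun p => rfl, hUK g hgU, hgθ]
  have hτq : ∀ a b, τ (quadElt φ r a b) = quadElt φ r (σ a) (σ b) := fun a b => by
    simp only [quadElt, map_add, map_mul, hτφ, hUr τ hτ]
  have hx0 : r - 1 ≠ 0 := fun e => by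
    rw [sub_eq_zero.1 e] at hr
    norm_num at hr
  refine exists_imp.mpr ?_ (exists_norm_of_local_approx hz hzU hθ₀ hD hτ hτθ hU
    (x := Units.mk0 (r - 1) hx0) (fun g hg => by simp [hUr g hg]) ?_)
  · rintro y ⟨hy, hxy⟩
    obtain ⟨a, b, hab⟩ : (y : AlgebraicClosure ℚ) ∈ quadField (φ := φ) hr hns' := by
      rw [← InfiniteGalois.fixedField_fixingSubgroup (quadField (φ := φ) hr hns'),
        IntermediateField.mem_fixedField_iff]
      intro g hg
      rw [IntermediateField.mem_fixingSubgroup_iff] at hg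
      refine hy g (mem_kummerStab.2 ⟨?_, hg _ (map_mem_quadField hr hns' θ)⟩)
      rw [hUdef, IntermediateField.mem_fixingSubgroup_iff]
      rintro _ ⟨p, q, rfl⟩
      exact hg _ ⟨algebraMap K K' p, algebraMap K K' q, rfl⟩
    have hab0 : a ≠ 0 ∨ b ≠ 0 := by
      refine not_and_or.mp fun h => y.ne_zero ?_
      rw [hab, h.1, h.2]; simp [quadElt]
    have hprod := congrArg (Units.val) hxy
    simp only [Units.val_mul, galUnit_coe, AlgEquiv.mul_apply, Units.val_mk0, hab, hτq] at hprod
    rw [mul_assoc, quadElt_mul hr, quadElt_mul hr,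
      show r - 1 = quadElt φ r (-1) 1 by simp [quadElt]; ring] at hprod
    obtain ⟨e1, e2⟩ := quadElt_injective hr hns' hprod
    refine exists_twNorm_eq_classRep σ hc (det_torusMat_ne_zero hns' hab0) one_ne_zero ?_
    rw [torusMat_mul, torusMat_mul, one_smul, e1, e2]
  · intro q g
    let j : K' →+* Omega q :=
      (padicEmbedding (q : ℕ)).toRingHom.comp ((g : GQ).toRingEquiv.toRingHom.comp φ)
    set s := padicEmbedding (q : ℕ) (g r)
    have hj : ∀ a, j a = padicEmbedding (q : ℕ) (g (φ a)) := fun a => rfl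
    have hjq : ∀ a b, quadElt j s a b = padicEmbedding (q : ℕ) (g (quadElt φ r a b)) := fun a b => by
      simp only [quadElt, map_add, map_mul, hj, s]
    rcases hloc q j s (by
      have := congrArg (fun t => padicEmbedding (q : ℕ) (g t)) hr
      simpa [hj, s] using this) with ⟨a, b, h⟩ | ⟨a, b, hab0, h⟩
    · refine Or.inl ⟨quadElt φK r a b, fun u hu => ?_, ?_⟩
      · simp only [quadElt, map_add, map_mul, hUK u hu, hUr u hu]
      · have e : quadElt (j.comp (algebraMap K K')) s a b
            = padicEmbedding (q : ℕ) (g (quadElt φK r a b)) :=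
          hjq (algebraMap K K' a) (algebraMap K K' b)
        rw [e, hj] at h
        simpa [hθdef, map_mul, map_pow] using h
    · have hne : quadElt φ r a b ≠ 0 := fun e => by
        obtain ⟨ea, eb⟩ := quadElt_eq_zero hr hns' e
        exact hab0.elim (fun h => h ea) (fun h => h eb)
      refine Or.inr ⟨Units.mk0 _ hne, fun u hu => ?_, ?_⟩
      · have hu1 := (mem_kummerStab.1 hu).1
        simp only [Units.val_mk0, quadElt, map_add, map_mul, hE' u hu, hUr u hu1]
      · simp only [hjq, s] at h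
        simpa [galUnit_coe, AlgEquiv.mul_apply, hτq, map_mul, map_div₀, map_sub, mul_assoc]
          using h

end Fermat.Agent.LT.Geom
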