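import Fermat.Agent.LT.Geom.Weight
import Mathlib.MeasureTheory.Integral.Bochner.Basic

/-!
Unfolding of a periodised kernel: for a countable `Γ`-set `S` and an invariant kernel
`k (γ s) (γ x) = k s x`, the integral of `∑_s k s` over `Γ \ X` is the sum over the orbits of the
integral of one term over `Stab \ X`. It serves both trace formulas (conjugation action on classes,
and `σ`-twisted conjugation).
-/

set_option autoImplicit false

noncomputable section

open MeasureTheory
open scoped ENNReal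

namespace Fermat.Agent.LT.Geom

variable {G X S : Type*} [Group G] [Countable G] [MulAction G X] [MeasurableSpace X]
  [MeasurableConstSMul G X] {μ : Measure X} [SMulInvariantMeasure G X μ]
  [MulAction G S] [Countable S]

/-- An invariant kernel. -/
def IsInvariantKernel (G : Type*) {X S β : Type*} [Group G] [MulAction G X] [MulAction G S]
    (k : S → X → β) : Prop :=
  ∀ (g : G) (s : S) (x : X), k (g • s) (g • x) = k s x

theorem IsInvariantKernel.comp {β γ : Type*} {k : S → X → β} (hk : IsInvariantKernel G k)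
    (f : β → γ) : IsInvariantKernel G fun s x => f (k s x) :=
  fun g s x => congrArg f (hk g s x)

/-- One orbit. -/
theorem lintegral_orbit {w ψ : X → ℝ≥0∞} {k : S → X → ℝ≥0∞} (hw : IsWeight G μ w) (s : S)
    (hψ : IsWeight (MulAction.stabilizer G s) μ ψ) (hk : IsInvariantKernel G k)
    (hm : ∀ t, Measurable (k t)) :
    ∫⁻ x, w x * ∑' o : MulAction.orbit G s, k o x ∂μ = ∫⁻ x, ψ x * k s x ∂μ := by
  have hF : Measurable fun x => ψ x * k s x := hψ.1.mul (hm s)
  rw [← lintegral_weight_mul_tsum hw hF]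
  refine lintegral_congr_ae ((ae_smul (G := G) hψ.2).mono fun x hx => ?_)
  simp only
  congr 1
  let π : G → MulAction.orbit G s := fun g => ⟨g⁻¹ • s, MulAction.mem_orbit s g⁻¹⟩
  have hk' : ∀ g : G, k s (g • x) = k (π g : S) x := fun g => by
    conv_rhs => rw [← hk g (π g : S) x]
    simp [π]
  have hfib : ∀ o : MulAction.orbit G s, ∑' g : {g // π g = o}, ψ ((g : G) • x) = 1 := by
    rintro ⟨_, ⟨a, rfl⟩⟩
    let g₀ : G := a⁻¹
    have hg₀ : π g₀ = ⟨a • s, MulAction.mem_orbit s a⟩ := Subtype.ext (by simp [π, g₀])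
    let e : MulAction.stabilizer G s ≃ {g // π g = ⟨a • s, MulAction.mem_orbit s a⟩} :=
      { toFun := fun h => ⟨(h : G) * g₀, by
          apply Subtype.ext
          simp only [π, g₀, mul_inv_rev, inv_inv, mul_smul]
          rw [MulAction.mem_stabilizer_iff.mp (inv_mem h.2)]⟩
        invFun := fun g => ⟨(g : G) * g₀⁻¹, by
          rw [MulAction.mem_stabilizer_iff, mul_smul]
          have := congrArg (fun o : MulAction.orbit G s => (g : G) • (o : S)) g.2
          simp only [π, g₀, smul_inv_smul, inv_inv] at this ⊢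
          exact this.symm⟩
        left_inv := fun h => by ext; simp
        right_inv := fun g => by ext; simp }
    rw [← e.tsum_eq]
    refine Eq.trans (tsum_congr fun h => ?_) (hx g₀)
    show ψ (((h : G) * g₀) • x) = _
    rw [mul_smul]
    rfl
  calc ∑' o : MulAction.orbit G s, k o x
      = ∑' o, (∑' g : {g // π g = o}, ψ ((g : G) • x)) * k o x := by simp only [hfib, one_mul]
    _ = ∑' o, ∑' g : {g // π g = o}, ψ ((g : G) • x) * k s ((g : G) • x) := by
        refine tsum_congr fun o => ?_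
        rw [← ENNReal.tsum_mul_right]
        refine tsum_congr fun g => ?_
        rw [hk' g, g.2]
    _ = ∑' g : G, ψ (g • x) * k s (g • x) := by
        rw [← ENNReal.tsum_sigma, ← (Equiv.sigmaFiberEquiv π).tsum_eq
          (fun g => ψ (g • x) * k s (g • x))]
        rfl

/-- All orbits: the geometric expansion, for nonnegative kernels. -/
theorem lintegral_unfold {w : X → ℝ≥0∞} {k : S → X → ℝ≥0∞} (hw : IsWeight G μ w)
    (hk : IsInvariantKernel G k) (hm : ∀ t, Measurable (k t))
    {ι : Type*} (rep : ι → S) (hrep : Function.Bijective fun i =>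
      (⟦rep i⟧ : MulAction.orbitRel.Quotient G S))
    (ψ : ι → X → ℝ≥0∞) (hψ : ∀ i, IsWeight (MulAction.stabilizer G (rep i)) μ (ψ i)) :
    ∫⁻ x, w x * ∑' s : S, k s x ∂μ = ∑' i, ∫⁻ x, ψ i x * k (rep i) x ∂μ := by
  haveI : Countable ι := Function.Injective.countable (f := rep) fun a b h =>
    hrep.1 (by simp only [h])
  have hsum : ∀ x, ∑' s : S, k s x = ∑' i, ∑' o : MulAction.orbit G (rep i), k o x := by
    intro x
    have hbij : Function.Bijective
        fun p : Σ i, MulAction.orbit G (rep i) => (p.2 : S) := by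
      constructor
      · rintro ⟨i, a, ha⟩ ⟨j, b, hb⟩ (h : a = b)
        subst h
        obtain rfl : i = j := hrep.1 <| Quotient.sound <| by
          change rep i ∈ MulAction.orbit G (rep j)
          rw [← MulAction.orbit_eq_iff.mpr hb, MulAction.orbit_eq_iff.mpr ha]
          exact MulAction.mem_orbit_self (rep i)
        rfl
      · intro s
        obtain ⟨i, hi⟩ := hrep.2 ⟦s⟧
        refine ⟨⟨i, s, ?_⟩, rfl⟩
        have hs : rep i ∈ MulAction.orbit G s := Quotient.exact hi
        rw [MulAction.orbit_eq_iff.mpr hs]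
        exact MulAction.mem_orbit_self s
    rw [← ENNReal.tsum_sigma, ← (Equiv.ofBijective _ hbij).tsum_eq fun s => k s x]
    rfl
  calc ∫⁻ x, w x * ∑' s : S, k s x ∂μ
      = ∫⁻ x, ∑' i, w x * ∑' o : MulAction.orbit G (rep i), k o x ∂μ :=
        lintegral_congr fun x => by rw [hsum, ENNReal.tsum_mul_left]
    _ = ∑' i, ∫⁻ x, w x * ∑' o : MulAction.orbit G (rep i), k o x ∂μ :=
        lintegral_tsum fun i => (hw.1.mul
          (Measurable.tsum fun o : MulAction.orbit G (rep i) => hm (o : S))).aemeasurable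
    _ = _ := tsum_congr fun i => lintegral_orbit hw (rep i) (hψ i) hk hm

/-- The geometric expansion for real kernels that are absolutely integrable on the quotient. -/
theorem integral_unfold {w : X → ℝ≥0∞} {k : S → X → ℝ} (hw : IsWeight G μ w)
    (hk : IsInvariantKernel G k) (hm : ∀ t, Measurable (k t))
    (hfin : ∫⁻ x, w x * ∑' s : S, ENNReal.ofReal |k s x| ∂μ ≠ ∞)
    {ι : Type*} (rep : ι → S) (hrep : Function.Bijective fun i =>
      (⟦rep i⟧ : MulAction.orbitRel.Quotient G S))
    (ψ : ι → X → ℝ≥0∞) (hψ : ∀ i, IsWeight (MulAction.stabilizer G (rep i)) μ (ψ i)) :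
    ∫ x, (w x).toReal * ∑' s : S, k s x ∂μ = ∑' i, ∫ x, (ψ i x).toReal * k (rep i) x ∂μ := by
  let kp : S → X → ℝ≥0∞ := fun s x => ENNReal.ofReal (k s x)
  let kn : S → X → ℝ≥0∞ := fun s x => ENNReal.ofReal (-k s x)
  let ka : S → X → ℝ≥0∞ := fun s x => ENNReal.ofReal |k s x|
  have hp := lintegral_unfold hw (hk.comp ENNReal.ofReal) (fun t => (hm t).ennreal_ofReal) rep hrep ψ hψ
  have hn := lintegral_unfold hw (hk.comp fun r => ENNReal.ofReal (-r))
    (fun t => (hm t).neg.ennreal_ofReal) rep hrep ψ hψ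
  have hle : ∀ s x, kp s x ≤ ka s x ∧ kn s x ≤ ka s x := fun s x =>
    ⟨ENNReal.ofReal_le_ofReal (le_abs_self _), ENNReal.ofReal_le_ofReal (neg_le_abs _)⟩
  have hmA : Measurable fun x => w x * ∑' s, ka s x :=
    hw.1.mul (Measurable.tsum fun s => (continuous_abs.measurable.comp (hm s)).ennreal_ofReal)
  have hmP : Measurable fun x => w x * ∑' s, kp s x :=
    hw.1.mul (Measurable.tsum fun s => (hm s).ennreal_ofReal)
  have hmN : Measurable fun x => w x * ∑' s, kn s x :=
    hw.1.mul (Measurable.tsum fun s => (hm s).neg.ennreal_ofReal)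
  have hPfin : ∫⁻ x, w x * ∑' s, kp s x ∂μ ≠ ∞ := ne_top_of_le_ne_top hfin
    (lintegral_mono fun x => mul_le_mul_right (ENNReal.tsum_le_tsum fun s => (hle s x).1) _)
  have hNfin : ∫⁻ x, w x * ∑' s, kn s x ∂μ ≠ ∞ := ne_top_of_le_ne_top hfin
    (lintegral_mono fun x => mul_le_mul_right (ENNReal.tsum_le_tsum fun s => (hle s x).2) _)
  -- left side
  have hptw : ∀ᵐ x ∂μ, (w x).toReal * ∑' s : S, k s x
      = (w x * ∑' s, kp s x).toReal - (w x * ∑' s, kn s x).toReal := by
    refine (ae_lt_top hmA hfin).mono fun x hx => ?_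
    rcases eq_or_ne (w x) 0 with h0 | h0
    · simp [h0]
    have hA : ∑' s, ka s x ≠ ∞ := fun h => hx.ne (by simp only [h]; exact ENNReal.mul_top h0)
    have hP : ∑' s, kp s x ≠ ∞ := ne_top_of_le_ne_top hA (ENNReal.tsum_le_tsum fun s => (hle s x).1)
    have hN : ∑' s, kn s x ≠ ∞ := ne_top_of_le_ne_top hA (ENNReal.tsum_le_tsum fun s => (hle s x).2)
    rw [ENNReal.toReal_mul, ENNReal.toReal_mul, ← mul_sub,
      ENNReal.tsum_toReal_eq (ENNReal.ne_top_of_tsum_ne_top hP),
      ENNReal.tsum_toReal_eq (ENNReal.ne_top_of_tsum_ne_top hN),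
      ← (ENNReal.summable_toReal hP).tsum_sub (ENNReal.summable_toReal hN)]
    congr 1
    exact tsum_congr fun s => by simp [kp, kn, ENNReal.toReal_ofReal', max_zero_sub_max_neg_zero_eq_self]
  have hL : ∫ x, (w x).toReal * ∑' s : S, k s x ∂μ
      = (∫⁻ x, w x * ∑' s, kp s x ∂μ).toReal - (∫⁻ x, w x * ∑' s, kn s x ∂μ).toReal := by
    rw [integral_congr_ae hptw, integral_sub
      (integrable_toReal_of_lintegral_ne_top hmP.aemeasurable hPfin)
      (integrable_toReal_of_lintegral_ne_top hmN.aemeasurable hNfin),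
      integral_toReal hmP.aemeasurable (ae_lt_top hmP hPfin),
      integral_toReal hmN.aemeasurable (ae_lt_top hmN hNfin)]
  -- right side
  have hP' : ∑' i, ∫⁻ x, ψ i x * kp (rep i) x ∂μ ≠ ∞ := hp ▸ hPfin
  have hN' : ∑' i, ∫⁻ x, ψ i x * kn (rep i) x ∂μ ≠ ∞ := hn ▸ hNfin
  have hR : ∀ i, ∫ x, (ψ i x).toReal * k (rep i) x ∂μ
      = (∫⁻ x, ψ i x * kp (rep i) x ∂μ).toReal - (∫⁻ x, ψ i x * kn (rep i) x ∂μ).toReal := by
    intro i
    have hmp : Measurable fun x => ψ i x * kp (rep i) x := (hψ i).1.mul (hm _).ennreal_ofReal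
    have hmn : Measurable fun x => ψ i x * kn (rep i) x := (hψ i).1.mul (hm _).neg.ennreal_ofReal
    have hpf := ENNReal.ne_top_of_tsum_ne_top hP' i
    have hnf := ENNReal.ne_top_of_tsum_ne_top hN' i
    rw [← integral_toReal hmp.aemeasurable (ae_lt_top hmp hpf),
      ← integral_toReal hmn.aemeasurable (ae_lt_top hmn hnf),
      ← integral_sub (integrable_toReal_of_lintegral_ne_top hmp.aemeasurable hpf)
        (integrable_toReal_of_lintegral_ne_top hmn.aemeasurable hnf)]
    refine integral_congr_ae (Filter.Eventually.of_forall fun x => ?_)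
    simp [kp, kn, ENNReal.toReal_mul, ENNReal.toReal_ofReal', ← mul_sub,
      max_zero_sub_max_neg_zero_eq_self]
  rw [hL, tsum_congr hR,
    (ENNReal.summable_toReal hP').tsum_sub (ENNReal.summable_toReal hN'),
    ← ENNReal.tsum_toReal_eq (ENNReal.ne_top_of_tsum_ne_top hP'),
    ← ENNReal.tsum_toReal_eq (ENNReal.ne_top_of_tsum_ne_top hN'), ← hp, ← hn]

end Fermat.Agent.LT.Geom
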